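/-
Program C (S55), foundation leaf "LOCAL POWER INDEX" (helper67), part 4: the embedding model.

For a finite extension `K` of `ℚ_q` inside `PadicAlgCl q` (helper88's model, `H88.integerRing K`):
* `isAdicComplete_integerRing`: the ring of integers is adically complete (leaf (F3));
* `card_quot_span_prime_emb`: `#(𝒪_K ⧸ q𝒪_K) = q ^ [K : ℚ_q]`.
The local power indices `[Kˣ : (Kˣ)^p]` and `[𝒪ˣ : (𝒪ˣ)^p]` are in `LocalIndexFinal.lean`.
-/
import Mathlib
import Fermat.Agent.S55.H88.LocalInt
import Fermat.Agent.S55.H67.PowIndexField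

set_option autoImplicit false

namespace Fermat.Agent.S55.H67

open IsLocalRing Filter Topology Fermat.Agent.S55.H88

variable {q : ℕ} [Fact q.Prime] (K : IntermediateField ℚ_[q] (PadicAlgCl q))

/-- The norm of `K` is nonarchimedean. -/
theorem norm_add_le_max_emb (x y : K) : ‖x + y‖ ≤ max ‖x‖ ‖y‖ :=
  PadicAlgCl.isNonarchimedean q (x : PadicAlgCl q) (y : PadicAlgCl q)

/-- Divisibility in the ring of integers in terms of the norm. -/
theorem integerRing_dvd_iff (a b : integerRing K) : a ∣ b ↔ ‖(b : K)‖ ≤ ‖(a : K)‖ := by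
  constructor
  · rintro ⟨c, rfl⟩
    have hc : ‖(c : K)‖ ≤ 1 := (mem_integerRing_iff K).1 c.2
    have e : (((a * c : integerRing K)) : K) = (a : K) * (c : K) := rfl
    rw [e, norm_mul]
    exact mul_le_of_le_one_right (norm_nonneg _) hc
  · intro h
    by_cases ha : (a : K) = 0
    · rw [ha, norm_zero] at h
      have hb : (b : K) = 0 := norm_le_zero_iff.1 h
      exact ⟨0, Subtype.ext (by rw [hb]; simp)⟩
    · have hc : (b : K) / (a : K) ∈ integerRing K := by
        rw [mem_integerRing_iff, norm_div]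
        exact div_le_one_of_le₀ h (norm_nonneg _)
      refine ⟨⟨(b : K) / (a : K), hc⟩, Subtype.ext ?_⟩
      show (b : K) = (a : K) * ((b : K) / (a : K))
      field_simp

variable [FiniteDimensional ℚ_[q] K]

/-- Convergence of `ϖ`-adic Cauchy sequences in the ring of integers of `K`. -/
theorem exists_limit_integerRing (ϖ : integerRing K) (hϖ : ‖(ϖ : K)‖ < 1)
    (f : ℕ → integerRing K) (hf : ∀ k, ϖ ^ k ∣ f (k + 1) - f k) :
    ∃ L : integerRing K, ∀ k, ϖ ^ k ∣ L - f k := by
  have : CompleteSpace K := completeSpace K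
  have hstep : ∀ k, ‖((f (k + 1) : integerRing K) : K) - (f k : K)‖ ≤ ‖(ϖ : K)‖ ^ k := by
    intro k
    have h := (integerRing_dvd_iff K _ _).1 (hf k)
    have e : (((ϖ ^ k : integerRing K)) : K) = (ϖ : K) ^ k := rfl
    have e' : (((f (k + 1) - f k : integerRing K)) : K) = (f (k + 1) : K) - (f k : K) := rfl
    rw [e, e', norm_pow] at h
    exact h
  have hϖ1 : ‖(ϖ : K)‖ ≤ 1 := hϖ.le
  have h1 : ∀ k m, k ≤ m → ‖((f m : integerRing K) : K) - (f k : K)‖ ≤ ‖(ϖ : K)‖ ^ k := by
    intro k m hkm
    induction m, hkm using Nat.le_induction with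
    | base => simp
    | succ m hkm ih =>
      have e : (f (m + 1) : K) - (f k : K) = ((f (m + 1) : K) - (f m : K)) + ((f m : K) - (f k : K)) := by
        ring
      rw [e]
      refine (norm_add_le_max_emb K _ _).trans (max_le ((hstep m).trans ?_) ih)
      exact pow_le_pow_of_le_one (norm_nonneg _) hϖ1 hkm
  have hcauchy : CauchySeq (fun k => (f k : K)) := by
    refine cauchySeq_of_le_geometric ‖(ϖ : K)‖ 1 hϖ fun n => ?_
    rw [dist_eq_norm, norm_sub_rev, one_mul]
    exact hstep n
  obtain ⟨L, hL⟩ := cauchySeq_tendsto_of_complete hcauchy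
  have h3 : ∀ k, ‖L - (f k : K)‖ ≤ ‖(ϖ : K)‖ ^ k := by
    intro k
    have ht : Tendsto (fun m => ‖((f m : integerRing K) : K) - (f k : K)‖) atTop
        (𝓝 ‖L - (f k : K)‖) := (hL.sub_const _).norm
    exact le_of_tendsto ht (eventually_atTop.2 ⟨k, fun m hm => h1 k m hm⟩)
  have hLmem : L ∈ integerRing K := by
    rw [mem_integerRing_iff]
    have e : L = (L - (f 0 : K)) + (f 0 : K) := by ring
    rw [e]
    refine (norm_add_le_max_emb K _ _).trans (max_le ?_ ((mem_integerRing_iff K).1 (f 0).2))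
    simpa using h3 0
  refine ⟨⟨L, hLmem⟩, fun k => ?_⟩
  rw [integerRing_dvd_iff]
  have e : (((ϖ ^ k : integerRing K)) : K) = (ϖ : K) ^ k := rfl
  have e' : ((((⟨L, hLmem⟩ : integerRing K) - f k : integerRing K)) : K) = L - (f k : K) := rfl
  rw [e, e', norm_pow]
  exact h3 k

/-- **(F3)** The ring of integers of a finite extension of `ℚ_q` inside `PadicAlgCl q` is
adically complete. -/
theorem isAdicComplete_integerRing :
    IsAdicComplete (maximalIdeal (integerRing K)) (integerRing K) := by
  have : IsDiscreteValuationRing (integerRing K) := isDiscreteValuationRing_integerRing K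
  obtain ⟨ϖ, hϖ⟩ := IsDiscreteValuationRing.exists_irreducible (integerRing K)
  have hϖlt : ‖(ϖ : K)‖ < 1 := by
    have h1 : ‖(ϖ : K)‖ ≤ 1 := (mem_integerRing_iff K).1 ϖ.2
    refine lt_of_le_of_ne h1 fun h => hϖ.not_isUnit ?_
    exact (isUnit_integerRing_iff K ϖ).2 h
  have hI : ∀ k : ℕ, ∀ x : integerRing K,
      x ∈ (maximalIdeal (integerRing K) ^ k • ⊤ : Submodule (integerRing K) (integerRing K))
        ↔ ϖ ^ k ∣ x := by
    intro k x
    rw [smul_eq_mul, Ideal.mul_top, hϖ.maximalIdeal_eq, Ideal.span_singleton_pow,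
      Ideal.mem_span_singleton]
  have : IsHausdorff (maximalIdeal (integerRing K)) (integerRing K) :=
    IsHausdorff.of_le_jacobson (I := maximalIdeal (integerRing K)) (integerRing K)
      (by rw [IsLocalRing.jacobson_eq_maximalIdeal _ bot_ne_top])
  refine { prec' := fun f hf => ?_ }
  have hf' : ∀ k, ϖ ^ k ∣ f (k + 1) - f k := by
    intro k
    have h := hf (Nat.le_succ k)
    rw [SModEq.sub_mem, hI] at h
    have e : f (k + 1) - f k = -(f k - f (k + 1)) := by ring
    rw [e]; exact h.neg_right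
  obtain ⟨L, hL⟩ := exists_limit_integerRing K ϖ hϖlt f hf'
  refine ⟨L, fun n => ?_⟩
  rw [SModEq.sub_mem, hI]
  have e : f n - L = -(L - f n) := by ring
  rw [e]; exact (hL n).neg_right

/-! ### The ring of integers as a `ℤ_q`-module -/

section Rank

omit [FiniteDimensional ℚ_[q] K] in
/-- The structure map `ℤ_q → 𝒪_K`. -/
noncomputable def intAlgMap : ℤ_[q] →+* integerRing K :=
  (algebraMap ℤ_[q] K).codRestrict (integerRing K) (fun x => by
    rw [mem_integerRing_iff]
    have e : ‖algebraMap ℤ_[q] K x‖ = ‖(x : ℚ_[q])‖ := by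
      show ‖((algebraMap ℤ_[q] K x : K) : PadicAlgCl q)‖ = _
      have e1 : ((algebraMap ℤ_[q] K x : K) : PadicAlgCl q)
          = algebraMap ℚ_[q] (PadicAlgCl q) (x : ℚ_[q]) := rfl
      rw [e1, PadicAlgCl.norm_extends]
    rw [e]
    exact PadicInt.norm_le_one x)

omit [FiniteDimensional ℚ_[q] K] in
theorem intAlgMap_coe (x : ℤ_[q]) : ((intAlgMap K x : integerRing K) : K) = algebraMap ℤ_[q] K x :=
  rfl

omit [FiniteDimensional ℚ_[q] K] in
/-- An element of `K` of norm `≤ 1` is integral over `ℤ_q`. -/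
theorem isIntegral_of_norm_le_one {x : K} (hx : ‖x‖ ≤ 1) : IsIntegral ℤ_[q] x := by
  have hxi : IsIntegral ℚ_[q] x := Algebra.IsIntegral.isIntegral x
  have hmin : minpoly ℚ_[q] (x : PadicAlgCl q) = minpoly ℚ_[q] x :=
    minpoly.algebraMap_eq (algebraMap K (PadicAlgCl q)).injective x
  have hsv : spectralValue (minpoly ℚ_[q] x) ≤ 1 := by
    have h1 : spectralNorm ℚ_[q] (PadicAlgCl q) (x : PadicAlgCl q) = ‖(x : PadicAlgCl q)‖ :=
      PadicAlgCl.spectralNorm_eq q _
    have h2 : spectralNorm ℚ_[q] (PadicAlgCl q) (x : PadicAlgCl q)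
        = spectralValue (minpoly ℚ_[q] (x : PadicAlgCl q)) := rfl
    rw [← hmin, ← h2, h1]
    exact hx
  have hcoeff := (spectralValue_le_one_iff (minpoly.monic hxi)).1 hsv
  have hlifts : minpoly ℚ_[q] x ∈ Polynomial.lifts (algebraMap ℤ_[q] ℚ_[q]) := by
    rw [Polynomial.lifts_iff_coeff_lifts]
    intro n
    exact ⟨⟨(minpoly ℚ_[q] x).coeff n, hcoeff n⟩, rfl⟩
  obtain ⟨Q, hQmap, -, hQmonic⟩ :=
    Polynomial.lifts_and_degree_eq_and_monic hlifts (minpoly.monic hxi)
  refine ⟨Q, hQmonic, ?_⟩
  have h3 : Polynomial.eval₂ (algebraMap ℤ_[q] K) x Q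
      = Polynomial.eval₂ (algebraMap ℚ_[q] K) x (Q.map (algebraMap ℤ_[q] ℚ_[q])) := by
    rw [Polynomial.eval₂_map, ← IsScalarTower.algebraMap_eq]
  rw [h3, hQmap]
  exact minpoly.aeval ℚ_[q] x

/-- `#(𝒪_K ⧸ q𝒪_K) = q ^ [K : ℚ_q]`: the ring of integers is a free `ℤ_q`-module of rank
`[K : ℚ_q]`. -/
theorem card_quot_span_prime_emb :
    Nat.card (integerRing K ⧸ Ideal.span {(q : integerRing K)}) = q ^ Module.finrank ℚ_[q] K := by
  classical
  let alg : Algebra ℤ_[q] (integerRing K) := (intAlgMap K).toAlgebra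
  have hq : algebraMap ℤ_[q] (integerRing K) (q : ℤ_[q]) = (q : integerRing K) :=
    map_natCast (algebraMap ℤ_[q] (integerRing K)) q
  have : IsScalarTower ℤ_[q] (integerRing K) K := IsScalarTower.of_algebraMap_eq (fun _ => rfl)
  have : IsIntegralClosure (integerRing K) ℤ_[q] K :=
    { algebraMap_injective := Subtype.val_injective
      isIntegral_iff := by
        intro x
        constructor
        · intro hx
          have h1 : IsIntegral (integerRing K) x := hx.tower_top
          exact IsIntegrallyClosed.isIntegral_iff.1 h1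
        · rintro ⟨y, rfl⟩
          exact isIntegral_of_norm_le_one K ((mem_integerRing_iff K).1 y.2) }
  have : Module.IsTorsionFree ℤ_[q] K := by
    rw [Module.isTorsionFree_iff_algebraMap_injective, IsScalarTower.algebraMap_eq ℤ_[q] ℚ_[q] K]
    exact (algebraMap ℚ_[q] K).injective.comp (IsFractionRing.injective ℤ_[q] ℚ_[q])
  have : Module.Finite ℤ_[q] (integerRing K) :=
    IsIntegralClosure.finite ℤ_[q] ℚ_[q] K (integerRing K)
  have : Module.Free ℤ_[q] (integerRing K) :=
    IsIntegralClosure.module_free ℤ_[q] ℚ_[q] K (integerRing K)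
  have hrank : Module.finrank ℤ_[q] (integerRing K) = Module.finrank ℚ_[q] K :=
    IsIntegralClosure.rank ℤ_[q] ℚ_[q] K (integerRing K)
  let b := Module.finBasis ℤ_[q] (integerRing K)
  -- the reduction map
  let g : integerRing K →+ (Fin (Module.finrank ℤ_[q] (integerRing K)) → ZMod q) :=
    { toFun := fun x i => PadicInt.toZMod (b.equivFun x i)
      map_zero' := by funext i; simp
      map_add' := fun x y => by funext i; simp }
  have hg : ∀ x i, g x i = PadicInt.toZMod (b.equivFun x i) := fun _ _ => rfl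
  have hsurj : Function.Surjective g := by
    intro c
    have hs : Function.Surjective (PadicInt.toZMod : ℤ_[q] →+* ZMod q) :=
      ZMod.ringHom_surjective _
    choose a ha using fun i => hs (c i)
    refine ⟨b.equivFun.symm a, ?_⟩
    funext i
    rw [hg, LinearEquiv.apply_symm_apply, ha]
  have hker : g.ker = (Ideal.span {(q : integerRing K)}).toAddSubgroup := by
    ext x
    rw [AddMonoidHom.mem_ker, Submodule.mem_toAddSubgroup, Ideal.mem_span_singleton']
    constructor
    · intro hx
      have h1 : ∀ i, ∃ c : ℤ_[q], b.equivFun x i = (q : ℤ_[q]) * c := by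
        intro i
        have h2 : PadicInt.toZMod (b.equivFun x i) = 0 := by rw [← hg, hx]; rfl
        have h3 : b.equivFun x i ∈ RingHom.ker (PadicInt.toZMod : ℤ_[q] →+* ZMod q) := h2
        rw [PadicInt.ker_toZMod, PadicInt.maximalIdeal_eq_span_p, Ideal.mem_span_singleton] at h3
        exact h3
      choose c hc using h1
      refine ⟨b.equivFun.symm c, ?_⟩
      apply b.equivFun.injective
      have h4 : b.equivFun.symm c * (q : integerRing K) = (q : ℤ_[q]) • b.equivFun.symm c := by
        rw [Algebra.smul_def, hq, mul_comm]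
      rw [h4, map_smul, LinearEquiv.apply_symm_apply]
      funext i
      rw [Pi.smul_apply, smul_eq_mul, hc i]
    · rintro ⟨y, rfl⟩
      funext i
      have h4 : y * (q : integerRing K) = (q : ℤ_[q]) • y := by
        rw [Algebra.smul_def, hq, mul_comm]
      rw [hg, h4, map_smul, Pi.smul_apply, smul_eq_mul, map_mul, map_natCast,
        ZMod.natCast_self, zero_mul]
      rfl
  have hcard : Nat.card (integerRing K ⧸ Ideal.span {(q : integerRing K)})
      = (Ideal.span {(q : integerRing K)}).toAddSubgroup.index := by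
    rw [← Submodule.cardQuot_apply]; rfl
  rw [hcard, ← hker, AddSubgroup.index_ker, AddMonoidHom.range_eq_top.2 hsurj,
    AddSubgroup.card_top, Nat.card_fun, Nat.card_zmod, Nat.card_fin, hrank]

end Rank

end Fermat.Agent.S55.H67
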