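/-
Program C (S55), foundation leaf "LOCAL POWER INDEX" (helper67), part 5: final statements in the
embedding model (helper88's `locField`, `integerRing`, `locUnits`).

For a finite extension `K` of `ℚ_q` inside `PadicAlgCl q` containing a primitive `p`-th root of
unity:
* `q ≠ p`: `[Kˣ : (Kˣ)^p] = p ^ 2`, `[U : U^p] = p`;
* `q = p`: `[Kˣ : (Kˣ)^p] = p ^ (2 + [K : ℚ_p])`, `[U : U^p] = p ^ (1 + [K : ℚ_p])`;
* `x ^ p ∈ U → x ∈ U`.
Here `U = locUnits q K = (integerRing K).unitGroup`.
-/
import Mathlib
import Fermat.Agent.S55.H88.SemiLocalDefs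
import Fermat.Agent.S55.H67.LocalIndexEmb

set_option autoImplicit false

namespace Fermat.Agent.S55.H67

open IsLocalRing Fermat.Agent.S55.H88

variable {q : ℕ} [Fact q.Prime] (K : IntermediateField ℚ_[q] (PadicAlgCl q))

/-- The norm of a natural number in `K` is its `q`-adic norm. -/
theorem norm_natCast_emb (n : ℕ) : ‖(n : K)‖ = ‖(n : ℚ_[q])‖ := by
  have h1 : ((n : K) : PadicAlgCl q) = algebraMap ℚ_[q] (PadicAlgCl q) (n : ℚ_[q]) := by
    rw [map_natCast]; rfl
  show ‖((n : K) : PadicAlgCl q)‖ = _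
  rw [h1, PadicAlgCl.norm_extends]

/-- A prime `p ≠ q` is a unit in the ring of integers of `K`. -/
theorem isUnit_natCast_integerRing {p : ℕ} (hp : p.Prime) (hpq : p ≠ q) :
    IsUnit ((p : ℕ) : integerRing K) := by
  rw [isUnit_integerRing_iff]
  have e : (((p : ℕ) : integerRing K) : K) = ((p : ℕ) : K) := rfl
  rw [e, norm_natCast_emb, Padic.norm_natCast_eq_one_iff]
  exact (Nat.coprime_primes Fact.out hp).2 (Ne.symm hpq)

/-- helper88's local unit group is the unit group of the valuation subring. -/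
theorem locUnits_eq_unitGroup : locUnits q K = (integerRing K).unitGroup := by
  ext u
  rw [ValuationSubring.mem_unitGroup_iff]
  have hu : (u : K) ≠ 0 := u.ne_zero
  have h0 : 0 < ‖(u : K)‖ := norm_pos_iff.2 hu
  have hv0 : 0 < (integerRing K).valuation (u : K) :=
    zero_lt_iff.2 ((map_ne_zero _).2 hu)
  constructor
  · intro h
    have h1 : ‖(u : K)‖ = 1 := h
    have ha : (integerRing K).valuation (u : K) ≤ 1 := by
      rw [ValuationSubring.valuation_le_one_iff, mem_integerRing_iff, h1]
    have hb : (integerRing K).valuation ((u : K)⁻¹) ≤ 1 := by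
      rw [ValuationSubring.valuation_le_one_iff, mem_integerRing_iff, norm_inv, h1, inv_one]
    rw [map_inv₀] at hb
    exact le_antisymm ha ((inv_le_one₀ hv0).1 hb)
  · intro h
    have ha : (u : K) ∈ integerRing K := by
      rw [← ValuationSubring.valuation_le_one_iff, h]
    have hb : (u : K)⁻¹ ∈ integerRing K := by
      rw [← ValuationSubring.valuation_le_one_iff, map_inv₀, h, inv_one]
    rw [mem_integerRing_iff] at ha hb
    rw [norm_inv] at hb
    show ‖(u : K)‖ = 1
    exact le_antisymm ha ((inv_le_one₀ h0).1 hb)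

/-- `x ^ p ∈ U → x ∈ U`. -/
theorem mem_locUnits_of_pow_mem {p : ℕ} (hp : p ≠ 0) {x : Kˣ} (h : x ^ p ∈ locUnits q K) :
    x ∈ locUnits q K := by
  rw [locUnits_eq_unitGroup] at h ⊢
  exact mem_unitGroup_of_pow_mem _ hp h

/-- A nonzero natural number is not zero in the ring of integers. -/
theorem natCast_integerRing_ne_zero {n : ℕ} (hn : n ≠ 0) : ((n : ℕ) : integerRing K) ≠ 0 := by
  intro h
  have h2 : ((n : ℕ) : K) = 0 := by
    have := congrArg (fun x : integerRing K => (x : K)) h
    exact this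
  exact hn (Nat.cast_eq_zero.1 h2)

variable [FiniteDimensional ℚ_[q] K]

/-- `q ≠ p`: `[Kˣ : (Kˣ)^p] = p ^ 2`. -/
theorem index_pow_emb_of_ne {p : ℕ} (hp : p.Prime) (hpq : p ≠ q) {ζ : K}
    (hζ : IsPrimitiveRoot ζ p) : (powMonoidHom p : Kˣ →* Kˣ).range.index = p ^ 2 := by
  have := isDiscreteValuationRing_integerRing K
  have := finite_residueField K
  have := isAdicComplete_integerRing K
  exact index_range_pow_field_of_isUnit_of_isPrimitiveRoot (integerRing K) K hp
    (isUnit_natCast_integerRing K hp hpq) hζ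

/-- `q ≠ p`: `[U : U^p] = p` for `U = 𝒪_Kˣ` as a subgroup of `Kˣ`. -/
theorem relIndex_pow_unitGroup_emb {p : ℕ} (hp : p.Prime) (hpq : p ≠ q) {ζ : K}
    (hζ : IsPrimitiveRoot ζ p) :
    ((integerRing K).unitGroup.map (powMonoidHom p)).relIndex (integerRing K).unitGroup = p := by
  have := isDiscreteValuationRing_integerRing K
  have := finite_residueField K
  have := isAdicComplete_integerRing K
  rw [relIndex_map_pow_unitGroup]
  exact index_range_pow_units_of_isUnit_of_isPrimitiveRoot (integerRing K) K hp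
    (isUnit_natCast_integerRing K hp hpq) hζ

/-- `q ≠ p`: `[U : U^p] = p` for helper88's `locUnits`. -/
theorem relIndex_pow_locUnits {p : ℕ} (hp : p.Prime) (hpq : p ≠ q) {ζ : K}
    (hζ : IsPrimitiveRoot ζ p) :
    ((locUnits q K).map (powMonoidHom p)).relIndex (locUnits q K) = p := by
  rw [locUnits_eq_unitGroup]
  exact relIndex_pow_unitGroup_emb K hp hpq hζ

/-- `q = p`: `[Kˣ : (Kˣ)^p] = p ^ (2 + [K : ℚ_p])`. -/
theorem index_pow_emb_self {ζ : K} (hζ : IsPrimitiveRoot ζ q) :
    (powMonoidHom q : Kˣ →* Kˣ).range.index = q ^ (2 + Module.finrank ℚ_[q] K) := by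
  have := isDiscreteValuationRing_integerRing K
  have := finite_residueField K
  have := isAdicComplete_integerRing K
  rw [index_range_pow_field_of_isPrimitiveRoot (integerRing K) K (Fact.out : q.Prime)
    (natCast_integerRing_ne_zero K (Fact.out : q.Prime).ne_zero) hζ, card_quot_span_prime_emb,
    pow_add]

/-- `q = p`: `[U : U^p] = p ^ (1 + [K : ℚ_p])` for `U = 𝒪_Kˣ` as a subgroup of `Kˣ`. -/
theorem relIndex_pow_unitGroup_emb_self {ζ : K} (hζ : IsPrimitiveRoot ζ q) :
    ((integerRing K).unitGroup.map (powMonoidHom q)).relIndex (integerRing K).unitGroup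
      = q ^ (1 + Module.finrank ℚ_[q] K) := by
  have := isDiscreteValuationRing_integerRing K
  have := finite_residueField K
  have := isAdicComplete_integerRing K
  rw [relIndex_map_pow_unitGroup,
    index_range_pow_units_of_isPrimitiveRoot (integerRing K) K (Fact.out : q.Prime)
    (natCast_integerRing_ne_zero K (Fact.out : q.Prime).ne_zero) hζ, card_quot_span_prime_emb,
    pow_add, pow_one]

end Fermat.Agent.S55.H67
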