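/-
Program C (S55), package C7 leaves (UI) and (LI) (helper67): the local power indices over all
finite places of a number field `k ∋ μ_p`, in helper88's embedding model.

Finite places are pairs `⟨q, w⟩`, `q : Nat.Primes`, `w : PlaceAbove q k`; the completion is
`locField q w.emb`.  Statements are in expanded form (they unfold to helper88's `FinPlace`,
`finX`, `finU` of `SemiLocalSpec.lean` and to helper8's `UnitIndexStatement`,
`LocalIndexStatement` of `KummerModel.lean` definitionally).

* `unitIndex_expanded`: `[U_v : U_v^p] = p` outside the places above `p`;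
* `localIndex_expanded`: `∏_{v ∈ S} [k_vˣ : (k_vˣ)^p] = p ^ (2 (r + |S|))` for every finite `S`
  containing the places above `p`, `r` the number of archimedean places.
-/
import Mathlib
import Fermat.Agent.S55.H88.SemiLocalDefs
import Fermat.Agent.S55.H41.SumLocalDegree
import Fermat.Agent.S55.H67.LocalIndexFinal

set_option autoImplicit false

namespace Fermat.Agent.S55.H67

open Fermat.Agent.S55.H88 NumberField

/-- (Local instance, as in `H88.SemiLocalSpec`.) -/
local instance factOfPrimesH67 (q : Nat.Primes) : Fact (q : ℕ).Prime := ⟨q.2⟩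

variable (k : Type*) [Field k] [NumberField k]

omit [NumberField k] in
/-- A number field containing a primitive `p`-th root of unity, `p` odd, has no real place. -/
theorem not_isReal_of_isPrimitiveRoot {p : ℕ} (hp : p.Prime) (hp2 : p ≠ 2) {ζ : k}
    (hζ : IsPrimitiveRoot ζ p) (w : InfinitePlace k) : ¬ w.IsReal := by
  intro hw
  have h1 : IsPrimitiveRoot (InfinitePlace.embedding_of_isReal hw ζ) p :=
    hζ.map_of_injective (InfinitePlace.embedding_of_isReal hw).injective
  have hodd : Odd p := hp.odd_of_ne_two hp2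
  have h3 : InfinitePlace.embedding_of_isReal hw ζ = 1 := by
    apply hodd.strictMono_pow.injective
    show InfinitePlace.embedding_of_isReal hw ζ ^ p = 1 ^ p
    rw [h1.pow_eq_one, one_pow]
  rw [h3, IsPrimitiveRoot.one_left_iff] at h1
  exact hp.one_lt.ne' h1

/-- `[k : ℚ] = 2 · #(archimedean places)` for `k ∋ μ_p`, `p` odd. -/
theorem finrank_eq_two_mul_card_infinitePlace {p : ℕ} (hp : p.Prime) (hp2 : p ≠ 2) {ζ : k}
    (hζ : IsPrimitiveRoot ζ p) : Module.finrank ℚ k = 2 * Nat.card (InfinitePlace k) := by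
  classical
  have h0 : InfinitePlace.nrRealPlaces k = 0 := by
    have : IsEmpty {w : InfinitePlace k // w.IsReal} :=
      ⟨fun w => not_isReal_of_isPrimitiveRoot k hp hp2 hζ w.1 w.2⟩
    exact Fintype.card_eq_zero
  have h1 := InfinitePlace.card_add_two_mul_card_eq_rank k
  have h2 := InfinitePlace.card_eq_nrRealPlaces_add_nrComplexPlaces k
  rw [h0, zero_add] at h1 h2
  rw [Nat.card_eq_fintype_card, h2, h1]

/-- The finite places above a prime, as a finite set of places. -/
noncomputable def placesAbove (P : Nat.Primes) : Finset (Σ q : Nat.Primes, PlaceAbove (q : ℕ) k) :=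
  haveI : Fintype (PlaceAbove (P : ℕ) k) := Fintype.ofFinite _
  Finset.univ.map (Function.Embedding.sigmaMk P)

theorem mem_placesAbove {P : Nat.Primes} {v : Σ q : Nat.Primes, PlaceAbove (q : ℕ) k} :
    v ∈ placesAbove k P ↔ v.1 = P := by
  unfold placesAbove
  rw [Finset.mem_map]
  constructor
  · rintro ⟨w, -, rfl⟩
    rfl
  · rintro rfl
    refine ⟨v.2, ?_, rfl⟩
    exact @Finset.mem_univ _ (Fintype.ofFinite _) _

theorem placesAbove_eq (P : Nat.Primes) [Fintype (PlaceAbove (P : ℕ) k)] :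
    placesAbove k P = Finset.univ.map (Function.Embedding.sigmaMk P) := by
  ext v
  constructor
  · intro hv
    have h := (mem_placesAbove k).1 hv
    subst h
    exact Finset.mem_map.2 ⟨v.2, Finset.mem_univ _, rfl⟩
  · intro hv
    obtain ⟨w, -, rfl⟩ := Finset.mem_map.1 hv
    exact (mem_placesAbove k).2 rfl

variable {k}

/-- Local index at a place not above `p`. -/
theorem index_pow_place_of_ne {p : ℕ} (hp : p.Prime) {ζ : k} (hζ : IsPrimitiveRoot ζ p)
    (v : Σ q : Nat.Primes, PlaceAbove (q : ℕ) k) (hv : (v.1 : ℕ) ≠ p) :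
    (powMonoidHom p : (locField (v.1 : ℕ) v.2.emb)ˣ →* (locField (v.1 : ℕ) v.2.emb)ˣ).range.index
      = p ^ 2 := by
  have := H41.finiteDimensional_locField (v.1 : ℕ) k v.2.emb
  exact index_pow_emb_of_ne _ hp (Ne.symm hv)
    (hζ.map_of_injective (locEmb (v.1 : ℕ) v.2.emb).injective)

/-- Local unit index at a place not above `p`. -/
theorem relIndex_pow_place_of_ne {p : ℕ} (hp : p.Prime) {ζ : k} (hζ : IsPrimitiveRoot ζ p)
    (v : Σ q : Nat.Primes, PlaceAbove (q : ℕ) k) (hv : (v.1 : ℕ) ≠ p) :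
    ((locUnits (v.1 : ℕ) (locField (v.1 : ℕ) v.2.emb)).map (powMonoidHom p)).relIndex
      (locUnits (v.1 : ℕ) (locField (v.1 : ℕ) v.2.emb)) = p := by
  have := H41.finiteDimensional_locField (v.1 : ℕ) k v.2.emb
  exact relIndex_pow_locUnits _ hp (Ne.symm hv)
    (hζ.map_of_injective (locEmb (v.1 : ℕ) v.2.emb).injective)

/-- Local index at a place above `p`. -/
theorem index_pow_place_self (P : Nat.Primes) {ζ : k} (hζ : IsPrimitiveRoot ζ (P : ℕ))
    (w : PlaceAbove (P : ℕ) k) :
    (powMonoidHom (P : ℕ) : (locField (P : ℕ) w.emb)ˣ →* (locField (P : ℕ) w.emb)ˣ).range.index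
      = (P : ℕ) ^ (2 + Module.finrank ℚ_[(P : ℕ)] (locField (P : ℕ) w.emb)) := by
  have := H41.finiteDimensional_locField (P : ℕ) k w.emb
  exact index_pow_emb_self _ (hζ.map_of_injective (locEmb (P : ℕ) w.emb).injective)

variable (k)

/-- **(UI)** `[U_v : U_v^p] = p` for all finite places outside the places above `p`. -/
theorem unitIndex_expanded {p : ℕ} (hp : p.Prime) {ζ : k} (hζ : IsPrimitiveRoot ζ p) :
    ∃ T : Finset (Σ q : Nat.Primes, PlaceAbove (q : ℕ) k), ∀ v, v ∉ T →
      ((locUnits (v.1 : ℕ) (locField (v.1 : ℕ) v.2.emb)).map (powMonoidHom p)).relIndex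
        (locUnits (v.1 : ℕ) (locField (v.1 : ℕ) v.2.emb)) = p := by
  refine ⟨placesAbove k ⟨p, hp⟩, fun v hv => ?_⟩
  exact relIndex_pow_place_of_ne hp hζ v
    (fun h => hv ((mem_placesAbove k).2 (Subtype.ext h)))

/-- The product of the local indices over the places above `p`. -/
theorem prod_index_placesAbove (P : Nat.Primes) {ζ : k} (hζ : IsPrimitiveRoot ζ (P : ℕ)) :
    ∏ v ∈ placesAbove k P, (powMonoidHom (P : ℕ) :
        (locField (v.1 : ℕ) v.2.emb)ˣ →* (locField (v.1 : ℕ) v.2.emb)ˣ).range.index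
      = (P : ℕ) ^ (2 * (placesAbove k P).card + Module.finrank ℚ k) := by
  classical
  have : Fintype (PlaceAbove (P : ℕ) k) := Fintype.ofFinite _
  rw [placesAbove_eq k P, Finset.prod_map, Finset.card_map]
  have h1 : ∀ w : PlaceAbove (P : ℕ) k,
      (powMonoidHom (P : ℕ) : (locField (P : ℕ) w.emb)ˣ →* (locField (P : ℕ) w.emb)ˣ).range.index
        = (P : ℕ) ^ (2 + Module.finrank ℚ_[(P : ℕ)] (locField (P : ℕ) w.emb)) :=
    fun w => index_pow_place_self P hζ w
  have h2 := H41.sumLocalDegree (P : ℕ) k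
  rw [finsum_eq_sum_of_fintype] at h2
  calc ∏ w : PlaceAbove (P : ℕ) k, (powMonoidHom (P : ℕ) :
          (locField (P : ℕ) w.emb)ˣ →* (locField (P : ℕ) w.emb)ˣ).range.index
      = ∏ w : PlaceAbove (P : ℕ) k,
          (P : ℕ) ^ (2 + Module.finrank ℚ_[(P : ℕ)] (locField (P : ℕ) w.emb)) :=
        Finset.prod_congr rfl fun w _ => h1 w
    _ = (P : ℕ) ^ (2 * (Finset.univ : Finset (PlaceAbove (P : ℕ) k)).card
          + Module.finrank ℚ k) := by
        rw [Finset.prod_pow_eq_pow_sum, Finset.sum_add_distrib, Finset.sum_const, smul_eq_mul,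
          h2, mul_comm]

/-- `(LI)` with the prime as an element of `Nat.Primes`. -/
theorem prod_index_of_placesAbove_subset (P : Nat.Primes) (hp2 : (P : ℕ) ≠ 2) {ζ : k}
    (hζ : IsPrimitiveRoot ζ (P : ℕ)) (S : Finset (Σ q : Nat.Primes, PlaceAbove (q : ℕ) k))
    (hS : placesAbove k P ⊆ S) :
    ∏ v ∈ S, (powMonoidHom (P : ℕ) :
        (locField (v.1 : ℕ) v.2.emb)ˣ →* (locField (v.1 : ℕ) v.2.emb)ˣ).range.index
      = (P : ℕ) ^ (2 * (Nat.card (InfinitePlace k) + S.card)) := by
  classical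
  have hST : ∏ v ∈ S \ placesAbove k P, (powMonoidHom (P : ℕ) :
      (locField (v.1 : ℕ) v.2.emb)ˣ →* (locField (v.1 : ℕ) v.2.emb)ˣ).range.index
      = (P : ℕ) ^ (2 * (S \ placesAbove k P).card) := by
    rw [pow_mul, ← Finset.prod_const]
    refine Finset.prod_congr rfl fun v hv => ?_
    rw [Finset.mem_sdiff] at hv
    exact index_pow_place_of_ne P.2 hζ v
      (fun h => hv.2 ((mem_placesAbove k).2 (Subtype.ext h)))
  rw [← Finset.prod_sdiff hS, hST, prod_index_placesAbove k P hζ, ← pow_add,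
    finrank_eq_two_mul_card_infinitePlace k P.2 hp2 hζ, Finset.card_sdiff_of_subset hS]
  have hc := Finset.card_le_card hS
  congr 1
  omega

/-- **(LI)** `∏_{v ∈ S} [k_vˣ : (k_vˣ)^p] = p ^ (2 (r + |S|))` for all finite sets `S` of finite
places containing the places above `p`. -/
theorem localIndex_expanded {p : ℕ} (hp : p.Prime) (hp2 : p ≠ 2) {ζ : k}
    (hζ : IsPrimitiveRoot ζ p) :
    ∃ T : Finset (Σ q : Nat.Primes, PlaceAbove (q : ℕ) k), ∀ S, T ⊆ S →
      ∏ v ∈ S, (powMonoidHom p :
          (locField (v.1 : ℕ) v.2.emb)ˣ →* (locField (v.1 : ℕ) v.2.emb)ˣ).range.index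
        = p ^ (2 * (Nat.card (InfinitePlace k) + S.card)) :=
  ⟨placesAbove k ⟨p, hp⟩, fun S hS => prod_index_of_placesAbove_subset k ⟨p, hp⟩ hp2 hζ S hS⟩

end Fermat.Agent.S55.H67
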