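/-
Program C (S55), package C6 (first inequality), leaf (COUNT) (helper67):
`placeCountKummerStatement : H50.PlaceCountKummerStatement`, through the four sub-leaves of
`H50/FirstIneqSpec2.lean`:

* (LNN) `localNonNormStatement` (adapter of helper18's local Kummer norm index);
* (INFCOUNT) `infinitePlaceCountStatement`;
* (SUMFIBER) `sumFiberStatement`;
* (FIBER) `fiberCountStatement`.
-/
import Mathlib
import Fermat.Agent.S55.H50.FirstIneqSpec2
import Fermat.Agent.S55.H18.KummerIndex
import Fermat.Agent.S55.H20.Decomp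
import Fermat.Agent.S55.H67.LocalIndexGlobal

set_option autoImplicit false

open NumberField

noncomputable section

namespace Fermat.Agent.S55.H67

open Fermat.Agent.S55.H8 Fermat.Agent.S55.H88 Fermat.Agent.S55.H50

universe u

attribute [local instance] factOfPrimesH67

/-! ### (LNN) -/

/-- **(LNN)** If `g` is not a local `p`-th power at `v`, the local Kummer norm group is
proper. -/
theorem localNonNormStatement : LocalNonNormStatement.{u} := by
  intro k _ _ p hp ζ hζ g v hv
  have hζ' : IsPrimitiveRoot (locEmb (v.1 : ℕ) v.emb ζ) p :=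
    hζ.map_of_injective (locEmb (v.1 : ℕ) v.emb).injective
  have : FiniteDimensional ℚ_[(v.1 : ℕ)] v.field := finiteDimensional_locField (v.1 : ℕ) v.emb
  exact Fermat.Agent.S55.H18.kummerNormGroup_ne_top_sub (v.1 : ℕ) v.field hp hζ'
    (fun b hb => hv ⟨b, hb⟩)

/-! ### (INFCOUNT) -/

/-- **(INFCOUNT)** Each archimedean place of `k ∋ μ_p` has `p` places of `N` above it. -/
theorem infinitePlaceCountStatement : InfinitePlaceCountStatement.{u} := by
  intro k N _ _ _ _ _ p hp hp2 ζ hζ hdeg
  have h1 := finrank_eq_two_mul_card_infinitePlace k hp hp2 hζ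
  have h2 := finrank_eq_two_mul_card_infinitePlace N hp hp2
    (hζ.map_of_injective (algebraMap k N).injective)
  have h3 := Module.finrank_mul_finrank ℚ k N
  rw [h1, h2, hdeg] at h3
  have h4 : 2 * (p * Nat.card (InfinitePlace k)) = 2 * Nat.card (InfinitePlace N) := by
    rw [← h3]; ring
  exact (Nat.eq_of_mul_eq_mul_left (by norm_num : 0 < 2) h4).symm

/-! ### (SUMFIBER) -/

/-- The fibres of the restriction of finite places are finite. -/
theorem finite_fiberOver (k N : Type u) [Field k] [Field N] [NumberField N] [Algebra k N]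
    (v : FinPlace k) : Finite (fiberOver k N v) := by
  have hsub : {w : FinPlace N | finRestrict k N w = v} ⊆
      Set.range (fun w : PlaceAbove (v.1 : ℕ) N => (⟨v.1, w⟩ : FinPlace N)) := by
    rintro ⟨q', w'⟩ h
    have h1 : q' = v.1 := congrArg Sigma.fst (h : finRestrict k N ⟨q', w'⟩ = v)
    subst h1
    exact ⟨w', rfl⟩
  exact ((Set.finite_range _).subset hsub).to_subtype

/-- **(SUMFIBER)** The places above a finite set, counted fibrewise. -/
theorem sumFiberStatement : SumFiberStatement.{u} := by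
  intro k N _ _ _ _ _ S
  classical
  let e : (Σ v : {v : FinPlace k // v ∈ S}, {w : FinPlace N // finRestrict k N w = ↑v}) ≃
      {w : FinPlace N // w ∈ placesOver k N S} :=
    Equiv.sigmaSubtypeFiberEquivSubtype (finRestrict k N) (p := fun w => w ∈ placesOver k N S)
      (q := fun v => v ∈ S) (fun _ => Iff.rfl)
  have h1 : Nat.card (placesOver k N S) =
      Nat.card (Σ v : {v : FinPlace k // v ∈ S}, {w : FinPlace N // finRestrict k N w = ↑v}) :=
    (Nat.card_congr e).symm
  have : ∀ v : {v : FinPlace k // v ∈ S}, Finite {w : FinPlace N // finRestrict k N w = ↑v} :=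
    fun v => finite_fiberOver k N v
  rw [h1, Nat.card_sigma]
  exact Finset.sum_coe_sort S (fun v => Nat.card (fiberOver k N v))

/-! ### (FIBER) -/

/-- The fibre over `v = ⟨q, u⟩` is the fibre of the restriction of places above `q`. -/
theorem card_fiberOver (k N : Type u) [Field k] [Field N] [Algebra k N] (v : FinPlace k) :
    Nat.card (fiberOver k N v) =
      Nat.card {w : PlaceAbove (v.1 : ℕ) N // PlaceAbove.restrict (v.1 : ℕ) k N w = v.2} := by
  obtain ⟨q, u⟩ := v
  let f : {w : PlaceAbove (q : ℕ) N // PlaceAbove.restrict (q : ℕ) k N w = u} →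
      fiberOver k N ⟨q, u⟩ := fun w => ⟨⟨q, w.1⟩, by
        show (⟨q, PlaceAbove.restrict (q : ℕ) k N w.1⟩ : FinPlace k) = ⟨q, u⟩
        rw [w.2]⟩
  have hf : Function.Bijective f := by
    constructor
    · intro a b hab
      have h1 : (⟨q, a.1⟩ : FinPlace N) = ⟨q, b.1⟩ := congrArg Subtype.val hab
      exact Subtype.ext (eq_of_heq (Sigma.mk.inj_iff.1 h1).2)
    · rintro ⟨⟨q', w'⟩, h⟩
      have h' : (⟨q', PlaceAbove.restrict (q' : ℕ) k N w'⟩ : FinPlace k) = ⟨q, u⟩ := h
      obtain ⟨rfl, h2⟩ := Sigma.mk.inj_iff.1 h'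
      exact ⟨⟨w', eq_of_heq h2⟩, rfl⟩
  exact (Nat.card_congr (Equiv.ofBijective f hf)).symm

/-- The place count above a place `u` of `k`, for an extension `τ'` of the chosen embedding. -/
theorem exists_extend_card (q : ℕ) [Fact q.Prime] (k N : Type u) [Field k] [Field N]
    [Algebra k N] [FiniteDimensional k N] [IsGalois k N] (u : PlaceAbove q k) :
    ∃ τ' : N →+* PadicAlgCl q, τ'.comp (algebraMap k N) = u.emb ∧
      Nat.card (decompGroup q k τ') *
          Nat.card {w : PlaceAbove q N // PlaceAbove.restrict q k N w = u}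
        = Nat.card (N ≃ₐ[k] N) := by
  obtain ⟨τ', hτ'⟩ := exists_extend q (K := N) u.emb
  refine ⟨τ', hτ', ?_⟩
  have h := Fermat.Agent.S55.H20.placeCount q k τ'
  rw [hτ'] at h
  have hu : placeOf q u.emb = u := Quotient.out_eq u
  rw [hu] at h
  exact h

/-- An automorphism of a Kummer layer fixing the root is trivial. -/
theorem eq_one_of_apply_root_eq {k N : Type u} [Field k] [Field N] [Algebra k N]
    [FiniteDimensional k N] [IsGalois k N] {p : ℕ} (hp : p.Prime)
    (hdeg : Module.finrank k N = p) {g : kˣ} (hg : g ∉ pPow p kˣ) {α : N}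
    (hα : α ^ p = algebraMap k N (g : k)) (σ : N ≃ₐ[k] N) (hσ : σ α = α) : σ = 1 := by
  have hcard : Nat.card (N ≃ₐ[k] N) = p := by rw [IsGalois.card_aut_eq_finrank, hdeg]
  have : Fact (Nat.card (N ≃ₐ[k] N)).Prime := ⟨hcard ▸ hp⟩
  rcases Subgroup.eq_bot_or_eq_top_of_prime_card (MulAction.stabilizer (N ≃ₐ[k] N) α) with h | h
  · have h1 : σ ∈ MulAction.stabilizer (N ≃ₐ[k] N) α := hσ
    rw [h] at h1
    exact Subgroup.mem_bot.1 h1
  · exfalso
    have hfix : ∀ f : N ≃ₐ[k] N, f α = α := fun f => by
      have h1 : f ∈ MulAction.stabilizer (N ≃ₐ[k] N) α := by rw [h]; trivial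
      exact h1
    have hbot : α ∈ (⊥ : IntermediateField k N) := (IsGalois.mem_bot_iff_fixed α).2 hfix
    obtain ⟨a, ha⟩ := IntermediateField.mem_bot.1 hbot
    have hap : a ^ p = (g : k) := by
      apply (algebraMap k N).injective
      rw [map_pow, ha, hα]
    have ha0 : a ≠ 0 := by
      rintro rfl
      rw [zero_pow hp.ne_zero] at hap
      exact g.ne_zero hap.symm
    exact hg ⟨Units.mk0 a ha0, Units.ext hap⟩

/-- If `g` is a `p`-th power in the completion of `k`, the decomposition group is trivial. -/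
theorem decompGroup_eq_bot_of_pow {q : ℕ} [Fact q.Prime] {k N : Type u} [Field k] [Field N]
    [Algebra k N] [FiniteDimensional k N] [IsGalois k N] {p : ℕ} (hp : p.Prime)
    (hdeg : Module.finrank k N = p) {ζ : k} (hζ : IsPrimitiveRoot ζ p) {g : kˣ}
    (hg : g ∉ pPow p kˣ) {α : N} (hα : α ^ p = algebraMap k N (g : k))
    (τ' : N →+* PadicAlgCl q) {c : PadicAlgCl q}
    (hc : c ∈ locField q (τ'.comp (algebraMap k N)))
    (hcp : c ^ p = τ' (algebraMap k N (g : k))) : decompGroup q k τ' = ⊥ := by
  rw [Subgroup.eq_bot_iff_forall]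
  rintro σ ⟨g', hg'⟩
  apply eq_one_of_apply_root_eq hp hdeg hg hα
  apply τ'.injective
  have h1 : τ' (σ α) = g' (τ' α) := RingHom.congr_fun hg' α
  rw [h1]
  have hfix : ∀ z ∈ locField q (τ'.comp (algebraMap k N)), g' z = z := by
    intro z hz
    have h2 := eqOn_locField q (τ'.comp (algebraMap k N)) g' 1 (by
      ext y
      show g' (τ' (algebraMap k N y)) = τ' (algebraMap k N y)
      have h3 : τ' (σ (algebraMap k N y)) = g' (τ' (algebraMap k N y)) := RingHom.congr_fun hg' _
      rw [← h3, σ.commutes]) hz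
    exact h2
  apply hfix
  have hc0 : c ≠ 0 := by
    rintro rfl
    rw [zero_pow hp.ne_zero] at hcp
    have h4 : algebraMap k N (g : k) = 0 := τ'.injective (by rw [← hcp, map_zero])
    exact g.ne_zero ((algebraMap k N).injective (by rw [h4, map_zero]))
  have hpow : (τ' α / c) ^ p = 1 := by
    rw [div_pow, ← map_pow, hα, hcp]
    exact div_self (by rw [← hcp]; exact pow_ne_zero _ hc0)
  have hζ' : IsPrimitiveRoot (τ' (algebraMap k N ζ)) p :=
    hζ.map_of_injective ((τ'.comp (algebraMap k N)).injective)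
  have : NeZero p := ⟨hp.ne_zero⟩
  obtain ⟨i, -, hi⟩ := hζ'.eq_pow_of_pow_eq_one hpow
  have hα' : τ' α = c * (τ' (algebraMap k N ζ)) ^ i := by
    rw [hi]
    field_simp
  rw [hα']
  have hmem : τ' (algebraMap k N ζ) ∈ locField q (τ'.comp (algebraMap k N)) :=
    IntermediateField.subset_adjoin ℚ_[q] (Set.range (τ'.comp (algebraMap k N))) ⟨ζ, rfl⟩
  exact mul_mem hc (pow_mem hmem i)

/-- **(FIBER)** A place of `k` has one or `p` places of `N` above it, and `p` of them if `g` is
a local `p`-th power. -/
theorem fiberCountStatement : FiberCountStatement.{u} := by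
  intro k N _ _ _ _ _ p hp ζ hζ g hg L v
  have : IsGalois k N := L.isGalois
  have : FiniteDimensional k N :=
    Module.finite_of_finrank_pos (by rw [L.finrank_eq]; exact hp.pos)
  have hcard : Nat.card (N ≃ₐ[k] N) = p := by rw [IsGalois.card_aut_eq_finrank, L.finrank_eq]
  obtain ⟨τ', hτ', hcount⟩ := exists_extend_card (v.1 : ℕ) k N v.2
  rw [hcard, ← card_fiberOver] at hcount
  constructor
  · exact (Nat.dvd_prime hp).1 (Dvd.intro_left _ hcount)
  · rintro ⟨c, hc⟩
    have hbot : decompGroup (v.1 : ℕ) k τ' = ⊥ :=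
      decompGroup_eq_bot_of_pow hp L.finrank_eq hζ hg L.root τ' (c := (c : PadicAlgCl (v.1 : ℕ)))
        (by rw [hτ']; exact c.2)
        (by
          have h1 := congrArg Subtype.val hc
          rw [← RingHom.comp_apply, hτ']
          exact h1)
    rw [hbot, Subgroup.card_bot, one_mul] at hcount
    exact hcount

/-! ### (COUNT) -/

/-- **(COUNT)** helper50's leaf `PlaceCountKummerStatement`. -/
theorem placeCountKummerStatement : PlaceCountKummerStatement.{u} :=
  placeCountKummerStatement_of localNonNormStatement fiberCountStatement sumFiberStatement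
    infinitePlaceCountStatement

end Fermat.Agent.S55.H67
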