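/-
Program C (S55), package C9a, sub-leaf (ISO-DIM) (helper67): the dimension of the space of
level-constant homomorphisms `Gal(Ω/E) → 𝔽_p` for a finite extension `E ∋ ζ_p` of `ℚ_q`:
`dim X_E ≤ 2 + [q = p] · [E : ℚ_q]`, from Kummer theory (`H26.HilbertDimStatement`) and the local
power index (`index_pow_emb_of_ne`, `index_pow_emb_self`).
-/
import Fermat.Agent.S55.H67.LocalIndexFinal
import Fermat.Agent.S55.H26.LocalHilbertSpec

set_option autoImplicit false

noncomputable section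

namespace Fermat.Agent.S55.H67

open Fermat.Agent.S55.H49 Fermat.Agent.S55.H26

variable (p : ℕ) [Fact p.Prime] (q : ℕ) [Fact q.Prime]

/-- `dim_{𝔽_p} Hom_lc(Gal(Ω/E), 𝔽_p) ≤ 2 + [q = p] · [E : ℚ_q]`. -/
theorem finrank_levelHoms_le (hHB : HilbertDimStatement p q)
    (E : IntermediateField ℚ_[q] (PadicAlgCl q)) [FiniteDimensional ℚ_[q] E]
    {ζ : PadicAlgCl q} (hζ : IsPrimitiveRoot ζ p) (hζE : ζ ∈ E) :
    FiniteDimensional (ZMod p) (levelHoms (k := ZMod p) (Dloc q) E.fixingSubgroup) ∧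
      Module.finrank (ZMod p) (levelHoms (k := ZMod p) (Dloc q) E.fixingSubgroup)
        ≤ 2 + (if q = p then Module.finrank ℚ_[q] E else 0) := by
  have hp : p.Prime := Fact.out
  obtain ⟨κ, hκ, hκp⟩ := hHB ζ hζ E hζE
  have hζ' : IsPrimitiveRoot (⟨ζ, hζE⟩ : E) p := IsPrimitiveRoot.coe_submonoidClass_iff.1 hζ
  have hidx : (powMonoidHom p : Eˣ →* Eˣ).range.index
      = p ^ (2 + (if q = p then Module.finrank ℚ_[q] E else 0)) := by
    by_cases h : q = p
    · subst h
      rw [if_pos rfl]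
      exact index_pow_emb_self E hζ'
    · rw [if_neg h, add_zero]
      exact index_pow_emb_of_ne E hp (Ne.symm h) hζ'
  have hfi : (powMonoidHom p : Eˣ →* Eˣ).range.FiniteIndex :=
    ⟨by rw [hidx]; exact pow_ne_zero _ hp.ne_zero⟩
  have hfq : Finite (Eˣ ⧸ (powMonoidHom p : Eˣ →* Eˣ).range) :=
    Subgroup.finite_quotient_of_finiteIndex
  let κ' : Eˣ →* Multiplicative (levelHoms (k := ZMod p) (Dloc q) E.fixingSubgroup) :=
    AddMonoidHom.toMultiplicativeRight κ
  have hker : (powMonoidHom p : Eˣ →* Eˣ).range ≤ κ'.ker := by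
    rintro _ ⟨b, rfl⟩
    rw [MonoidHom.mem_ker]
    show Multiplicative.ofAdd (κ (Additive.ofMul (b ^ p))) = 1
    rw [hκp b]
    rfl
  let g : Eˣ ⧸ (powMonoidHom p : Eˣ →* Eˣ).range →*
      Multiplicative (levelHoms (k := ZMod p) (Dloc q) E.fixingSubgroup) :=
    QuotientGroup.lift _ κ' hker
  have hg : Function.Surjective g := by
    intro v
    obtain ⟨b, hb⟩ := hκ (Multiplicative.toAdd v)
    refine ⟨(Additive.toMul b : Eˣ), ?_⟩
    show Multiplicative.ofAdd (κ (Additive.ofMul (Additive.toMul b))) = v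
    rw [ofMul_toMul, hb]
    rfl
  have hfV : Finite (levelHoms (k := ZMod p) (Dloc q) E.fixingSubgroup) :=
    Finite.of_surjective g hg
  have hcard : Nat.card (levelHoms (k := ZMod p) (Dloc q) E.fixingSubgroup)
      ≤ p ^ (2 + (if q = p then Module.finrank ℚ_[q] E else 0)) := by
    rw [← hidx]
    exact Nat.card_le_card_of_surjective g hg
  have hmf : Module.Finite (ZMod p) (levelHoms (k := ZMod p) (Dloc q) E.fixingSubgroup) :=
    Module.Finite.of_finite
  refine ⟨hmf, ?_⟩
  rw [Module.natCard_eq_pow_finrank (K := ZMod p), Nat.card_zmod] at hcard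
  exact (Nat.pow_le_pow_iff_right hp.one_lt).1 hcard

end Fermat.Agent.S55.H67
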