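/-
Program C (S55), package C9a, sub-leaf (ISO-DIM) (helper67): `H87.IsoDimLeaf`, verbatim.

`dim H¹(ℚ_q, F_L') ≤ 2 · #{w ∣ q} + [q = p] · [L : ℚ]` for a level field `L` and `q ∈ S`.
Ingredients: the permutation-module injection (`IsoDimOrb.lean`), Kummer theory
(`H33.hilbertDim`), the dictionary levels ↔ finite extensions of `ℚ_q`
(`H63.localFieldLevelsStatement`), the local power index (`LocalIndexFinal.lean`), and the orbit
count (`H81.orbitCountLeaf`).
-/
import Fermat.Agent.S55.H67.IsoDimOrb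
import Fermat.Agent.S55.H67.IsoDimHoms
import Fermat.Agent.S55.H87.IsoLocalSpec
import Fermat.Agent.S55.H87.BaseAdm
import Fermat.Agent.S55.H81.IsoOrbLeaf
import Fermat.Agent.S55.H33.HilbertDim
import Fermat.Agent.S55.H63.LocalLevels
import Fermat.Agent.S29.H81.CycloFrob

set_option autoImplicit false

open CategoryTheory groupCohomology ExtCitation

noncomputable section

namespace Fermat.Agent.S55.H67

open Fermat.Agent.S55.H49 Fermat.Agent.S55.H68 Fermat.Agent.S55.H26 Fermat.Agent.S55.H70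

local notation "Qb" => AlgebraicClosure ℚ

local instance isAlgebraicQbar_h67i : Algebra.IsAlgebraic ℚ (AlgebraicClosure ℚ) :=
  AlgebraicClosure.isAlgebraic ℚ
local instance isAlgClosureQbar_h67i : IsAlgClosure ℚ (AlgebraicClosure ℚ) :=
  ⟨inferInstance, inferInstance⟩
local instance isGaloisQbar_h67i : IsGalois ℚ (AlgebraicClosure ℚ) :=
  IsAlgClosure.isGalois ℚ (AlgebraicClosure ℚ)

/-- **(ISO-DIM), local form** (in the vocabulary of `H26`: `GalQ q`, `Dloc q`). -/
theorem isoDim_local (p : ℕ) [Fact p.Prime] (q : ℕ) [Fact q.Prime]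
    (L : IntermediateField ℚ Qb) [FiniteDimensional ℚ L] (hL : IsGalois ℚ L)
    (hμ : ∀ ζ : Qb, ζ ^ p = 1 → ζ ∈ L)
    (hHB : HilbertDimStatement p q) (hLVL : LocalFieldLevelsStatement q)
    (Y : Type) [Finite Y] (f : H49.GQ ⧸ L.fixingSubgroup → Y)
    (hf : ∀ x y, f x = f y → ∃ σ : GalQ q, localGaloisToGlobal q σ • x = y) :
    FiniteDimensional (ZMod p) (Hlc (Dloc q) (Rep.res (localGaloisToGlobal q)
        ((Rep.ofMulAction (ZMod p) H49.GQ (H49.GQ ⧸ L.fixingSubgroup)).dualTwist (cycloChar p)) :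
          Rep.{0} (ZMod p) (GalQ q)) 1) ∧
      Module.finrank (ZMod p) (Hlc (Dloc q) (Rep.res (localGaloisToGlobal q)
        ((Rep.ofMulAction (ZMod p) H49.GQ (H49.GQ ⧸ L.fixingSubgroup)).dualTwist (cycloChar p)) :
          Rep.{0} (ZMod p) (GalQ q)) 1)
        ≤ 2 * Nat.card Y + (if q = p then Module.finrank ℚ L else 0) := by
  have hnorm : (L.fixingSubgroup).Normal :=
    @IsGalois.fixingSubgroup_normal_of_isGalois ℚ (AlgebraicClosure ℚ) _ _ _ L _ hL
  have hgalq : IsGalois ℚ_[q] (PadicAlgCl q) := IsAlgClosure.isGalois ℚ_[q] (PadicAlgCl q)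
  have hfinX : Finite (H49.GQ ⧸ L.fixingSubgroup) :=
    Subgroup.quotient_finite_of_isOpen L.fixingSubgroup
      (IntermediateField.fixingSubgroup_isOpen L)
  have hLev : (Dloc q).Lev L := (show FiniteDimensional ℚ L from inferInstance)
  -- the fixed field `E` of the local subgroup of level `L`
  obtain ⟨E, hEfin, hE⟩ := hLVL.2.2 ((Dloc q).sub L) L hLev le_rfl
  have hmem : ∀ h : GalQ q,
      h ∈ E.fixingSubgroup ↔ localGaloisToGlobal q h ∈ L.fixingSubgroup := by
    intro h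
    rw [hE]
    rfl
  -- the primitive root
  obtain ⟨ζ₀, hζ₀⟩ := Fermat.Agent.S29.H81.exists_isPrimitiveRoot_qbar p
  have hfix : ∀ h : GalQ q, h ∈ E.fixingSubgroup → localGaloisToGlobal q h ζ₀ = ζ₀ := by
    intro h hh
    exact (hmem h).1 hh ⟨ζ₀, hμ ζ₀ hζ₀.pow_eq_one⟩
  have hζ : IsPrimitiveRoot (padicEmbedding q ζ₀) p :=
    hζ₀.map_of_injective (padicEmbedding q).injective
  have hζE : padicEmbedding q ζ₀ ∈ E := by
    rw [← InfiniteGalois.fixedField_fixingSubgroup E, IntermediateField.mem_fixedField_iff]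
    intro h hh
    rw [← padicEmbedding_localGaloisToGlobal, hfix h hh]
  obtain ⟨hVfin, hVd⟩ := finrank_levelHoms_le p q hHB E hζ hζE
  -- the hypotheses of the counting form
  have T3 : ∀ h ∈ E.fixingSubgroup, cycloChar p (localGaloisToGlobal q h) = 1 := fun h hh =>
    Fermat.Agent.S29.H81.cycloChar_eq_one_of_apply hζ₀ (hfix h hh)
  have T4 : ∀ h ∈ E.fixingSubgroup, ∀ x : H49.GQ ⧸ L.fixingSubgroup,
      localGaloisToGlobal q h • x = x := fun h hh x =>
    Fermat.Agent.S55.H87.smul_coset_eq L hL ((hmem h).1 hh) x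
  have T5 : ∀ g : GalQ q, ∀ x : H49.GQ ⧸ L.fixingSubgroup,
      localGaloisToGlobal q g • x = x → g ∈ E.fixingSubgroup := by
    intro g x hx
    rw [hmem]
    induction x using QuotientGroup.induction_on with
    | H γ =>
      have h1 : ((localGaloisToGlobal q g * γ : H49.GQ) : H49.GQ ⧸ L.fixingSubgroup)
          = (γ : H49.GQ ⧸ L.fixingSubgroup) := hx
      rw [QuotientGroup.eq] at h1
      have h2 := Subgroup.Normal.conj_mem hnorm _ h1 γ
      have h3 : γ * ((localGaloisToGlobal q g * γ)⁻¹ * γ) * γ⁻¹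
          = (localGaloisToGlobal q g)⁻¹ := by group
      rw [h3] at h2
      exact (Subgroup.inv_mem_iff _).1 h2
  have h3 : ∀ a : (Rep.res (localGaloisToGlobal q)
      ((Rep.ofMulAction (ZMod p) H49.GQ (H49.GQ ⧸ L.fixingSubgroup)).dualTwist (cycloChar p)) :
        Rep.{0} (ZMod p) (GalQ q)),
      IsLC (Dloc q) (Rep.res (localGaloisToGlobal q)
      ((Rep.ofMulAction (ZMod p) H49.GQ (H49.GQ ⧸ L.fixingSubgroup)).dualTwist (cycloChar p)) :
        Rep.{0} (ZMod p) (GalQ q)) (fun _ : Fin 0 → GalQ q => a) := by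
    intro a
    refine ⟨L, hLev, hnorm, fun _ _ _ => rfl, fun _ s hs => ?_⟩
    exact perm_ρ_eq_of_mem (localGaloisToGlobal q) (cycloChar p) E.fixingSubgroup T3 T4 s
      ((hmem s).2 hs) a
  obtain ⟨r, hr1, hr2, hfd, hrk⟩ := finrank_Hlc_perm_le (k := ZMod p)
    (X := H49.GQ ⧸ L.fixingSubgroup) (Dloc q) (localGaloisToGlobal q) (cycloChar p)
    E.fixingSubgroup T3 T4 T5 h3 _ hVfin hVd
  refine ⟨hfd, hrk.trans ?_⟩
  have hrY : r ≤ Nat.card Y := hr2 Y f hf
  have hidxE : E.fixingSubgroup.index = Module.finrank ℚ_[q] E :=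
    (IntermediateField.finrank_eq_fixingSubgroup_index (L := E)).symm
  have hidxL : Nat.card (H49.GQ ⧸ L.fixingSubgroup) = Module.finrank ℚ L :=
    (IntermediateField.finrank_eq_fixingSubgroup_index (L := L)).symm
  rw [hidxE, hidxL] at hr1
  by_cases hqp : q = p
  · rw [if_pos hqp, if_pos hqp, mul_add]
    exact Nat.add_le_add (by rw [mul_comm]; exact Nat.mul_le_mul_left 2 hrY) hr1
  · rw [if_neg hqp, if_neg hqp, add_zero, add_zero, mul_comm]
    exact Nat.mul_le_mul_left 2 hrY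

/-- **Leaf (ISO-DIM)** of C9a, verbatim and unconditional:
`dim H¹(ℚ_q, F_L') ≤ 2 · #{w ∣ q} + [q = p] · [L : ℚ]`. -/
theorem isoDimLeaf (p : ℕ) [Fact p.Prime] (S : Finset Nat.Primes) :
    Fermat.Agent.S55.H87.IsoDimLeaf p S := by
  intro L hL _ q
  obtain ⟨-, hgal, hμ⟩ := hL
  have : Fact (q.1 : ℕ).Prime := ⟨q.1.2⟩
  obtain ⟨f, hf⟩ := Fermat.Agent.S55.H81.orbitCountLeaf q.1 L hgal
  have hLVL : LocalFieldLevelsStatement (q.1 : ℕ) :=
    Fermat.Agent.S55.H63.localFieldLevelsStatement (q.1 : ℕ)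
  have key := isoDim_local p (q.1 : ℕ) L hgal hμ
    (Fermat.Agent.S55.H33.hilbertDim p (q.1 : ℕ) hLVL) hLVL
    ↥(Fermat.Agent.S55.H87.placesOver L {q.1}) f (fun x y h => hf x y h)
  rw [Nat.card_eq_fintype_card, Fintype.card_coe] at key
  refine ⟨key.1, ?_⟩
  have h2 := key.2
  by_cases hqp : q.1 = pPrime p
  · rw [if_pos hqp]
    have e : (q.1 : ℕ) = p := congrArg Subtype.val hqp
    rw [if_pos e] at h2
    exact h2
  · rw [if_neg hqp]
    rw [if_neg (fun h : (q.1 : ℕ) = p => hqp (Subtype.ext h))] at h2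
    exact h2

end Fermat.Agent.S55.H67
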