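/-
Program C (S55), foundation leaf "LOCAL POWER INDEX", part (G0): an abstract index count.
For an endomorphism `f` of a commutative group `A` and a finite-index subgroup `B` stable under
`f` on which `f` is injective: `[A : f A] = #ker f * [B : f B]`.
Mathlib only.  helper67.
-/
import Mathlib

namespace Fermat.Agent.S55.H67

open Subgroup

/-- Index count: if `B` has finite index in `A`, is mapped into itself by `f` and meets the
kernel of `f` trivially, then `[A : f(A)] = #ker f * [B : f(B)]`. -/
theorem index_range_eq {A : Type*} [CommGroup A] (f : A →* A) (B : Subgroup A) [B.FiniteIndex]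
    (hmap : B.map f ≤ B) (hinj : B ⊓ f.ker = ⊥) :
    f.range.index = Nat.card f.ker * (B.map f).relIndex B := by
  have h1 := Subgroup.index_map B f
  have h2 := Subgroup.relIndex_mul_index hmap
  have h3 := Subgroup.relIndex_mul_index (le_sup_left : B ≤ B ⊔ f.ker)
  have h4 : B.relIndex (B ⊔ f.ker) = Nat.card f.ker := by
    rw [Subgroup.relIndex_sup_left, ← Subgroup.inf_relIndex_right, hinj,
      Subgroup.relIndex_bot_left]
  have hfin : (B ⊔ f.ker).FiniteIndex := Subgroup.finiteIndex_of_le (le_sup_left : B ≤ B ⊔ f.ker)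
  have h0 : (B ⊔ f.ker).index ≠ 0 := hfin.index_ne_zero
  rw [h4] at h3
  have h5 : (B ⊔ f.ker).index * f.range.index
      = (B ⊔ f.ker).index * (Nat.card f.ker * (B.map f).relIndex B) := by
    rw [← h1, ← h2, ← h3]; ring
  exact Nat.eq_of_mul_eq_mul_left (Nat.pos_of_ne_zero h0) h5

/-- In the situation of `index_range_eq` the kernel is finite. -/
theorem finite_ker_of_inf_eq_bot {A : Type*} [CommGroup A] (f : A →* A) (B : Subgroup A)
    [B.FiniteIndex] (hinj : B ⊓ f.ker = ⊥) : Finite f.ker := by
  have h3 := Subgroup.relIndex_mul_index (le_sup_left : B ≤ B ⊔ f.ker)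
  have h4 : B.relIndex (B ⊔ f.ker) = Nat.card f.ker := by
    rw [Subgroup.relIndex_sup_left, ← Subgroup.inf_relIndex_right, hinj,
      Subgroup.relIndex_bot_left]
  rw [h4] at h3
  have h0 : B.index ≠ 0 := Subgroup.FiniteIndex.index_ne_zero
  have h5 : Nat.card f.ker ≠ 0 := fun h => h0 (by rw [← h3, h]; simp)
  exact Nat.finite_of_card_ne_zero h5

end Fermat.Agent.S55.H67
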