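/-
Program C (S55), foundation leaf "LOCAL POWER INDEX" (helper67).  Mathlib only.

For a discrete valuation ring `O` with finite residue field, complete for the adic topology,
and a prime number `p` with `(p : O) ≠ 0`:
  `[Oˣ : (Oˣ)^p] = #μ_p(O) * #(O ⧸ pO)`.
The proof uses the higher unit groups `U n = {u | u ≡ 1 mod 𝔪^n}`: for `n > e = v(p)` the
`p`-th power map is injective on `U n` with image `U (n + e)`, and `U n / U (n+e) ≃ O ⧸ 𝔪^e`.
-/
import Mathlib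
import Fermat.Agent.S55.H67.IndexCount

namespace Fermat.Agent.S55.H67

open IsLocalRing

/-! ### A binomial expansion -/

open Finset in
/-- Binomial expansion for a prime exponent, keeping only what is needed:
`(x + z)^p = x^p + p x^(p-1) z + p z^2 h + z^p`. -/
theorem add_pow_prime_expand {R : Type*} [CommRing R] {p : ℕ} (hp : p.Prime) (x z : R) :
    ∃ h : R, (x + z) ^ p = x ^ p + p * x ^ (p - 1) * z + p * z ^ 2 * h + z ^ p := by
  have h1 := add_pow_prime_eq' hp z x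
  have hmem : 1 ∈ Ioo 0 p := by
    rw [Finset.mem_Ioo]; exact ⟨Nat.one_pos, hp.one_lt⟩
  rw [← Finset.add_sum_erase _ _ hmem] at h1
  refine ⟨∑ k ∈ (Ioo 0 p).erase 1, z ^ (k - 2) * x ^ (p - k) * ((p.choose k / p : ℕ) : R), ?_⟩
  have h2 : ∑ k ∈ (Ioo 0 p).erase 1, z ^ k * x ^ (p - k) * ((p.choose k / p : ℕ) : R)
      = z ^ 2 * ∑ k ∈ (Ioo 0 p).erase 1, z ^ (k - 2) * x ^ (p - k) * ((p.choose k / p : ℕ) : R) := by
    rw [Finset.mul_sum]
    refine Finset.sum_congr rfl fun k hk => ?_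
    rw [Finset.mem_erase, Finset.mem_Ioo] at hk
    have hk2 : 2 ≤ k := by omega
    have : z ^ k = z ^ 2 * z ^ (k - 2) := by rw [← pow_add]; congr 1; omega
    rw [this]; ring
  rw [h2] at h1
  have h3 : (p.choose 1 / p : ℕ) = 1 := by
    rw [Nat.choose_one_right]; exact Nat.div_self hp.pos
  rw [h3] at h1
  rw [add_comm x z, h1]
  push_cast
  ring

/-- `(1 + z)^p = 1 + p z + p z^2 h + z^p`. -/
theorem one_add_pow_prime {R : Type*} [CommRing R] {p : ℕ} (hp : p.Prime) (z : R) :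
    ∃ h : R, (1 + z) ^ p = 1 + p * z + p * z ^ 2 * h + z ^ p := by
  obtain ⟨h, hh⟩ := add_pow_prime_expand hp (1 : R) z
  exact ⟨h, by rw [hh]; simp⟩

/-! ### Dependent choice of a sequence -/

/-- A sequence built by dependent choice, remembering the relation between consecutive terms. -/
theorem exists_seq_of_step {α : Type*} (P : ℕ → α → Prop) (R : ℕ → α → α → Prop) (a0 : α)
    (h0 : P 0 a0) (hstep : ∀ k a, P k a → ∃ b, P (k + 1) b ∧ R k a b) :
    ∃ f : ℕ → α, f 0 = a0 ∧ (∀ k, P k (f k)) ∧ ∀ k, R k (f k) (f (k + 1)) := by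
  classical
  let g : ∀ k, {a // P k a} := fun k =>
    Nat.rec (motive := fun k => {a // P k a}) ⟨a0, h0⟩
      (fun k a => ⟨Classical.choose (hstep k a.1 a.2), (Classical.choose_spec (hstep k a.1 a.2)).1⟩) k
  refine ⟨fun k => (g k).1, rfl, fun k => (g k).2, fun k => ?_⟩
  exact (Classical.choose_spec (hstep k (g k).1 (g k).2)).2

/-! ### Valuation estimates with a uniformiser -/

section Estimates

variable {O : Type*} [CommRing O] {ϖ : O} {p e : ℕ} {u₀ : Oˣ}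

/-- `(1+z)^p - 1 - p z` is divisible by `ϖ^(m+e+1)` when `ϖ^m ∣ z`, `m > e = v(p)`. -/
theorem pow_dvd_one_add_pow_sub (hp : p.Prime) (hpe : (p : O) = u₀ * ϖ ^ e) {m : ℕ}
    (hm : e + 1 ≤ m) {z : O} (hz : ϖ ^ m ∣ z) :
    ϖ ^ (m + e + 1) ∣ (1 + z) ^ p - 1 - p * z := by
  obtain ⟨h, hh⟩ := one_add_pow_prime hp z
  have e1 : (1 + z) ^ p - 1 - p * z = p * z ^ 2 * h + z ^ p := by rw [hh]; ring
  rw [e1]
  have hpdvd : ϖ ^ e ∣ (p : O) := by rw [hpe]; exact Dvd.intro_left _ rfl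
  refine dvd_add ?_ ?_
  · have h2 : ϖ ^ e * (ϖ ^ m) ^ 2 ∣ (p : O) * z ^ 2 := mul_dvd_mul hpdvd (pow_dvd_pow_of_dvd hz 2)
    have h3 : ϖ ^ (m + e + 1) ∣ ϖ ^ e * (ϖ ^ m) ^ 2 := by
      rw [← pow_mul, ← pow_add]; exact pow_dvd_pow _ (by omega)
    exact (h3.trans h2).mul_right h
  · have h2 : (ϖ ^ m) ^ p ∣ z ^ p := pow_dvd_pow_of_dvd hz p
    have h3 : ϖ ^ (m + e + 1) ∣ (ϖ ^ m) ^ p := by
      rw [← pow_mul]
      refine pow_dvd_pow _ ?_
      have : m * 2 ≤ m * p := Nat.mul_le_mul_left m hp.two_le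
      omega
    exact h3.trans h2

/-- `(1+z)^p ≡ 1 mod ϖ^(m+e)` when `ϖ^m ∣ z`, `m > e`. -/
theorem pow_dvd_one_add_pow_sub_one (hp : p.Prime) (hpe : (p : O) = u₀ * ϖ ^ e) {m : ℕ}
    (hm : e + 1 ≤ m) {z : O} (hz : ϖ ^ m ∣ z) :
    ϖ ^ (m + e) ∣ (1 + z) ^ p - 1 := by
  have h1 := pow_dvd_one_add_pow_sub hp hpe hm hz
  have h2 : ϖ ^ (m + e) ∣ (p : O) * z := by
    rw [hpe, pow_add, mul_comm (ϖ ^ m)]
    exact mul_dvd_mul (Dvd.intro_left _ rfl) hz
  have h3 : (1 + z) ^ p - 1 = ((1 + z) ^ p - 1 - p * z) + p * z := by ring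
  rw [h3]
  exact dvd_add ((pow_dvd_pow _ (by omega)).trans h1) h2

/-- If `(1+z)^p ≡ 1 mod ϖ^(m+e+1)` and `ϖ^m ∣ z`, `m > e`, then `ϖ^(m+1) ∣ z`. -/
theorem pow_succ_dvd_of_one_add_pow [IsDomain O] (hp : p.Prime) (hϖ : ϖ ≠ 0) (hpe : (p : O) = u₀ * ϖ ^ e)
    {m : ℕ} (hm : e + 1 ≤ m) {z : O} (hz : ϖ ^ m ∣ z)
    (h : ϖ ^ (m + e + 1) ∣ (1 + z) ^ p - 1) : ϖ ^ (m + 1) ∣ z := by
  have h1 := pow_dvd_one_add_pow_sub hp hpe hm hz
  have h2 : ϖ ^ (m + e + 1) ∣ (p : O) * z := by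
    have h3 : (p : O) * z = ((1 + z) ^ p - 1) - ((1 + z) ^ p - 1 - p * z) := by ring
    rw [h3]; exact dvd_sub h h1
  have h4 : ϖ ^ e * ϖ ^ (m + 1) ∣ ϖ ^ e * ((u₀ : O) * z) := by
    have : ϖ ^ e * ((u₀ : O) * z) = (p : O) * z := by rw [hpe]; ring
    rw [this, ← pow_add]
    have : e + (m + 1) = m + e + 1 := by omega
    rw [this]; exact h2
  have h5 := (mul_dvd_mul_iff_left (pow_ne_zero e hϖ)).1 h4
  exact (Units.dvd_mul_left).1 (by rwa [mul_comm] at h5)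

end Estimates

/-! ### Higher unit groups -/

section OneUnits

variable (O : Type*) [CommRing O] [IsLocalRing O]

/-- `U n`: the units of `O` congruent to `1` modulo `𝔪^n`. -/
def oneUnits (n : ℕ) : Subgroup Oˣ :=
  (Units.map ((Ideal.Quotient.mk (maximalIdeal O ^ n)) : O →* O ⧸ maximalIdeal O ^ n)).ker

variable {O}

theorem mem_oneUnits_iff {n : ℕ} {u : Oˣ} :
    u ∈ oneUnits O n ↔ (u : O) - 1 ∈ maximalIdeal O ^ n := by
  unfold oneUnits
  rw [MonoidHom.mem_ker, Units.ext_iff, Units.coe_map, Units.val_one]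
  exact Ideal.Quotient.mk_eq_one_iff_sub_mem _

theorem oneUnits_antitone {m n : ℕ} (h : m ≤ n) : oneUnits O n ≤ oneUnits O m := fun _ hu =>
  mem_oneUnits_iff.2 (Ideal.pow_le_pow_right h (mem_oneUnits_iff.1 hu))

/-- An element congruent to `1` modulo the maximal ideal is a unit. -/
theorem isUnit_of_sub_one_mem {x : O} (h : x - 1 ∈ maximalIdeal O) : IsUnit x := by
  by_contra hx
  have h1 : x ∈ maximalIdeal O := (IsLocalRing.mem_maximalIdeal x).2 hx
  have h2 : (1 : O) ∈ maximalIdeal O := by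
    have h3 : x - (x - 1) = 1 := by ring
    rw [← h3]
    exact Ideal.sub_mem _ h1 h
  exact (Ideal.ne_top_iff_one _).1 (IsLocalRing.maximalIdeal.isMaximal O).ne_top h2

instance finiteIndex_oneUnits [IsNoetherianRing O] [Finite (ResidueField O)] (n : ℕ) :
    (oneUnits O n).FiniteIndex := by
  have h1 : Finite (O ⧸ maximalIdeal O) := ‹Finite (ResidueField O)›
  have h2 : Finite (O ⧸ maximalIdeal O ^ n) :=
    Ideal.finite_quotient_pow (IsNoetherian.noetherian (maximalIdeal O)) n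
  unfold oneUnits
  infer_instance

end OneUnits

/-! ### The `p`-th power map on higher unit groups of a discrete valuation ring -/

section DVR

variable {O : Type*} [CommRing O] [IsDomain O] [IsDiscreteValuationRing O]
variable {ϖ : O} {p e : ℕ} {u₀ : Oˣ}

theorem mem_oneUnits_iff_dvd (hϖ : Irreducible ϖ) {n : ℕ} {u : Oˣ} :
    u ∈ oneUnits O n ↔ ϖ ^ n ∣ (u : O) - 1 := by
  rw [mem_oneUnits_iff, hϖ.maximalIdeal_eq, Ideal.span_singleton_pow, Ideal.mem_span_singleton]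

/-- If `ϖ^k ∣ z` for all `k` then `z = 0`. -/
theorem eq_zero_of_forall_pow_dvd (hϖ : Irreducible ϖ) {z : O} (h : ∀ k, ϖ ^ k ∣ z) : z = 0 := by
  by_contra h0
  obtain ⟨k, hk⟩ := FiniteMultiplicity.of_not_isUnit hϖ.not_isUnit h0
  exact hk (h (k + 1))

/-- `p`-th powers of `U m` lie in `U (m + e)` for `m > e = v(p)`. -/
theorem pow_mem_oneUnits (hϖ : Irreducible ϖ) (hp : p.Prime) (hpe : (p : O) = u₀ * ϖ ^ e)
    {m : ℕ} (hm : e + 1 ≤ m) {x : Oˣ} (hx : x ∈ oneUnits O m) :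
    x ^ p ∈ oneUnits O (m + e) := by
  rw [mem_oneUnits_iff_dvd hϖ] at hx ⊢
  have h := pow_dvd_one_add_pow_sub_one hp hpe hm hx
  rw [add_sub_cancel] at h
  rwa [Units.val_pow_eq_pow_val]

/-- The `p`-th power map is injective on `U n` for `n > e = v(p)`. -/
theorem eq_one_of_pow_eq_one (hϖ : Irreducible ϖ) (hp : p.Prime) (hpe : (p : O) = u₀ * ϖ ^ e)
    {n : ℕ} (hn : e + 1 ≤ n) {x : Oˣ} (hx : x ∈ oneUnits O n) (hxp : x ^ p = 1) : x = 1 := by
  rw [mem_oneUnits_iff_dvd hϖ] at hx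
  have hzp : (1 + ((x : O) - 1)) ^ p - 1 = 0 := by
    rw [add_sub_cancel, ← Units.val_pow_eq_pow_val, hxp, Units.val_one, sub_self]
  have hall : ∀ k, ϖ ^ (n + k) ∣ (x : O) - 1 := by
    intro k
    induction k with
    | zero => exact hx
    | succ k ih =>
      exact pow_succ_dvd_of_one_add_pow hp hϖ.ne_zero hpe (by omega : e + 1 ≤ n + k) ih
        (by rw [hzp]; exact dvd_zero _)
  have hz0 : (x : O) - 1 = 0 :=
    eq_zero_of_forall_pow_dvd hϖ fun k => (pow_dvd_pow _ (by omega)).trans (hall k)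
  exact Units.ext (by rw [Units.val_one]; exact sub_eq_zero.1 hz0)

/-- One step of the successive approximation: modulo `U (m+e+1)` every element of `U (m+e)`
is a `p`-th power of an element of `U m`. -/
theorem exists_oneUnit_step (hϖ : Irreducible ϖ) (hp : p.Prime) (hpe : (p : O) = u₀ * ϖ ^ e)
    {m : ℕ} (hm : e + 1 ≤ m) {y : Oˣ} (hy : y ∈ oneUnits O (m + e)) :
    ∃ x ∈ oneUnits O m, y * (x ^ p)⁻¹ ∈ oneUnits O (m + e + 1) := by
  rw [mem_oneUnits_iff_dvd hϖ] at hy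
  obtain ⟨t, ht⟩ := hy
  have hwdvd : ϖ ^ m ∣ ((u₀⁻¹ : Oˣ) : O) * ϖ ^ m * t := ⟨((u₀⁻¹ : Oˣ) : O) * t, by ring⟩
  have hpw : (p : O) * (((u₀⁻¹ : Oˣ) : O) * ϖ ^ m * t) = (y : O) - 1 := by
    have h1 : (u₀ : O) * ((u₀⁻¹ : Oˣ) : O) = 1 := Units.mul_inv u₀
    rw [ht, hpe, pow_add]
    linear_combination (ϖ ^ e * ϖ ^ m * t) * h1
  have hunit : IsUnit (1 + ((u₀⁻¹ : Oˣ) : O) * ϖ ^ m * t) := isUnit_of_sub_one_mem (by
    rw [add_sub_cancel_left, hϖ.maximalIdeal_eq, Ideal.mem_span_singleton]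
    exact (dvd_pow_self ϖ (by omega : m ≠ 0)).trans hwdvd)
  obtain ⟨x, hx⟩ := hunit
  refine ⟨x, ?_, ?_⟩
  · rw [mem_oneUnits_iff_dvd hϖ, hx, add_sub_cancel_left]; exact hwdvd
  · rw [mem_oneUnits_iff_dvd hϖ]
    have h1 := pow_dvd_one_add_pow_sub hp hpe hm hwdvd
    have h3 : (x : O) ^ p * (((x ^ p)⁻¹ : Oˣ) : O) = 1 := by
      rw [← Units.val_pow_eq_pow_val]; exact Units.mul_inv _
    have h2 : ((y * (x ^ p)⁻¹ : Oˣ) : O) - 1
        = -((1 + ((u₀⁻¹ : Oˣ) : O) * ϖ ^ m * t) ^ p - 1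
            - p * (((u₀⁻¹ : Oˣ) : O) * ϖ ^ m * t)) * (((x ^ p)⁻¹ : Oˣ) : O) := by
      rw [Units.val_mul, hpw, ← hx]
      linear_combination h3
    rw [h2]
    exact (h1.neg_right).mul_right _

/-- Surjectivity: for `n > e = v(p)` every element of `U (n+e)` is the `p`-th power of an element
of `U n`, provided `O` is complete (stated as convergence of `ϖ`-adic Cauchy sequences). -/
theorem exists_pow_eq_of_mem_oneUnits (hϖ : Irreducible ϖ) (hp : p.Prime)
    (hpe : (p : O) = u₀ * ϖ ^ e)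
    (hcomplete : ∀ f : ℕ → O, (∀ k, ϖ ^ k ∣ f (k + 1) - f k) → ∃ L, ∀ k, ϖ ^ k ∣ L - f k)
    {n : ℕ} (hn : e + 1 ≤ n) {y : Oˣ} (hy : y ∈ oneUnits O (n + e)) :
    ∃ x ∈ oneUnits O n, x ^ p = y := by
  obtain ⟨f, -, hfP, hfR⟩ := exists_seq_of_step
    (P := fun k (P : Oˣ) => P ∈ oneUnits O n ∧ y * (P ^ p)⁻¹ ∈ oneUnits O (n + k + e))
    (R := fun k (P Q : Oˣ) => Q * P⁻¹ ∈ oneUnits O (n + k)) 1
    ⟨one_mem _, by simpa using hy⟩
    (by
      rintro k P ⟨hP1, hP2⟩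
      have hP2' : y * (P ^ p)⁻¹ ∈ oneUnits O (n + k + e) := hP2
      obtain ⟨x, hx1, hx2⟩ := exists_oneUnit_step hϖ hp hpe (by omega : e + 1 ≤ n + k) hP2'
      refine ⟨P * x, ⟨mul_mem hP1 (oneUnits_antitone (by omega) hx1), ?_⟩, ?_⟩
      · have h1 : y * ((P * x) ^ p)⁻¹ = y * (P ^ p)⁻¹ * (x ^ p)⁻¹ := by
          rw [mul_pow, mul_inv, mul_assoc]
        have h2 : n + (k + 1) + e = n + k + e + 1 := by omega
        rw [h1, h2]; exact hx2
      · have h1 : P * x * P⁻¹ = x := by rw [mul_comm P x, mul_inv_cancel_right]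
        rw [h1]; exact hx1)
  have hg : ∀ k, ϖ ^ k ∣ ((f (k + 1) : Oˣ) : O) - ((f k : Oˣ) : O) := by
    intro k
    have h1 := (mem_oneUnits_iff_dvd hϖ).1 (hfR k)
    have h2 : ((f (k + 1) : Oˣ) : O) - ((f k : Oˣ) : O)
        = (((f (k + 1) * (f k)⁻¹ : Oˣ) : O) - 1) * ((f k : Oˣ) : O) := by
      rw [Units.val_mul, sub_mul, one_mul, mul_assoc, Units.inv_mul, mul_one]
    rw [h2]
    exact ((pow_dvd_pow _ (by omega)).trans h1).mul_right _
  obtain ⟨L, hL⟩ := hcomplete (fun k => ((f k : Oˣ) : O)) hg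
  have hL1 : ϖ ^ n ∣ L - 1 := by
    have h1 := (mem_oneUnits_iff_dvd hϖ).1 (hfP n).1
    have h2 : L - 1 = (L - ((f n : Oˣ) : O)) + (((f n : Oˣ) : O) - 1) := by ring
    rw [h2]; exact dvd_add (hL n) h1
  have hunit : IsUnit L := isUnit_of_sub_one_mem (by
    rw [hϖ.maximalIdeal_eq, Ideal.mem_span_singleton]
    exact (dvd_pow_self ϖ (by omega : n ≠ 0)).trans hL1)
  obtain ⟨x, hx⟩ := hunit
  refine ⟨x, (mem_oneUnits_iff_dvd hϖ).2 (by rw [hx]; exact hL1), ?_⟩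
  have hall : ∀ k, ϖ ^ k ∣ L ^ p - (y : O) := by
    intro k
    have h1 : ϖ ^ k ∣ L ^ p - ((f k : Oˣ) : O) ^ p := (hL k).trans (sub_dvd_pow_sub_pow _ _ p)
    have h2 := (mem_oneUnits_iff_dvd hϖ).1 (hfP k).2
    have h3 : ((f k : Oˣ) : O) ^ p * ((((f k) ^ p)⁻¹ : Oˣ) : O) = 1 := by
      rw [← Units.val_pow_eq_pow_val]; exact Units.mul_inv _
    have h4 : ((f k : Oˣ) : O) ^ p - (y : O)
        = -(((y * ((f k) ^ p)⁻¹ : Oˣ) : O) - 1) * ((f k : Oˣ) : O) ^ p := by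
      rw [Units.val_mul]
      linear_combination (y : O) * h3
    have h5 : ϖ ^ k ∣ ((f k : Oˣ) : O) ^ p - (y : O) := by
      rw [h4]
      exact (((pow_dvd_pow _ (by omega)).trans h2).neg_right).mul_right _
    have h6 : L ^ p - (y : O) = (L ^ p - ((f k : Oˣ) : O) ^ p) + (((f k : Oˣ) : O) ^ p - (y : O)) := by
      ring
    rw [h6]; exact dvd_add h1 h5
  have h0 := eq_zero_of_forall_pow_dvd hϖ hall
  exact Units.ext (by rw [Units.val_pow_eq_pow_val, hx]; exact sub_eq_zero.1 h0)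

/-- `U n / U (n + e) ≃ O ⧸ 𝔪^e` for `1 ≤ n`, `e ≤ n`; here as an index. -/
theorem relIndex_oneUnits (hϖ : Irreducible ϖ) {n e : ℕ} (hn : 1 ≤ n) (hen : e ≤ n) :
    (oneUnits O (n + e)).relIndex (oneUnits O n) = Nat.card (O ⧸ maximalIdeal O ^ e) := by
  classical
  have hspec : ∀ u : oneUnits O n, ∃ d : O, ((u : Oˣ) : O) - 1 = ϖ ^ n * d := fun u =>
    (mem_oneUnits_iff_dvd hϖ).1 u.2
  choose d hd using hspec
  have hϖn : ϖ ^ n ≠ 0 := pow_ne_zero n hϖ.ne_zero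
  have hmul : ∀ u v : oneUnits O n, d (u * v) = d u + d v + ϖ ^ n * (d u * d v) := by
    intro u v
    apply mul_left_cancel₀ hϖn
    rw [← hd (u * v)]
    have hu := hd u
    have hv := hd v
    rw [Subgroup.coe_mul, Units.val_mul]
    linear_combination (((v : Oˣ) : O)) * hu + (1 + ϖ ^ n * d u) * hv
  have hmem : ∀ c : O, ϖ ^ n * c ∈ maximalIdeal O ^ e := by
    intro c
    rw [hϖ.maximalIdeal_eq, Ideal.span_singleton_pow, Ideal.mem_span_singleton]
    exact (pow_dvd_pow _ hen).mul_right c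
  let φ : oneUnits O n →* Multiplicative (O ⧸ maximalIdeal O ^ e) :=
    MonoidHom.mk' (fun u => Multiplicative.ofAdd (Ideal.Quotient.mk (maximalIdeal O ^ e) (d u)))
      (by
        intro u v
        rw [hmul u v, map_add, (Ideal.Quotient.eq_zero_iff_mem).2 (hmem _), add_zero, map_add,
          ofAdd_add])
  have hφ : ∀ u, φ u = Multiplicative.ofAdd (Ideal.Quotient.mk (maximalIdeal O ^ e) (d u)) :=
    fun _ => rfl
  have hker : φ.ker = (oneUnits O (n + e)).subgroupOf (oneUnits O n) := by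
    ext u
    rw [MonoidHom.mem_ker, Subgroup.mem_subgroupOf, mem_oneUnits_iff_dvd hϖ, hd u, pow_add,
      mul_dvd_mul_iff_left hϖn, hφ, ofAdd_eq_one, Ideal.Quotient.eq_zero_iff_mem,
      hϖ.maximalIdeal_eq, Ideal.span_singleton_pow, Ideal.mem_span_singleton]
  have hsurj : Function.Surjective φ := by
    intro c
    obtain ⟨x, hx⟩ := Ideal.Quotient.mk_surjective (Multiplicative.toAdd c)
    have hunit : IsUnit (1 + ϖ ^ n * x) := isUnit_of_sub_one_mem (by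
      rw [add_sub_cancel_left, hϖ.maximalIdeal_eq, Ideal.mem_span_singleton]
      exact (dvd_pow_self ϖ (by omega : n ≠ 0)).mul_right x)
    obtain ⟨w, hw⟩ := hunit
    have hwmem : w ∈ oneUnits O n := (mem_oneUnits_iff_dvd hϖ).2 (by
      rw [hw, add_sub_cancel_left]; exact dvd_mul_right _ _)
    refine ⟨⟨w, hwmem⟩, ?_⟩
    have h1 : d ⟨w, hwmem⟩ = x := by
      apply mul_left_cancel₀ hϖn
      rw [← hd ⟨w, hwmem⟩]
      show (w : O) - 1 = _
      rw [hw, add_sub_cancel_left]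
    rw [hφ, h1, hx]
    rfl
  rw [Subgroup.relIndex, ← hker, Subgroup.index_ker, MonoidHom.range_eq_top.2 hsurj,
    Subgroup.card_top]
  exact Nat.card_congr Multiplicative.toAdd

/-- **Local power index**, uniformiser form.  `O` a discrete valuation ring with finite residue
field and uniformiser `ϖ`, complete (`ϖ`-adic Cauchy sequences converge), `p` a prime number with
`p = u₀ ϖ^e`.  Then `[Oˣ : (Oˣ)^p] = #μ_p(O) * #(O ⧸ 𝔪^e)`. -/
theorem index_range_pow_units_of_uniformizer [Finite (ResidueField O)] (hϖ : Irreducible ϖ)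
    (hp : p.Prime) (hpe : (p : O) = u₀ * ϖ ^ e)
    (hcomplete : ∀ f : ℕ → O, (∀ k, ϖ ^ k ∣ f (k + 1) - f k) → ∃ L, ∀ k, ϖ ^ k ∣ L - f k) :
    (powMonoidHom p : Oˣ →* Oˣ).range.index
      = Nat.card (powMonoidHom p : Oˣ →* Oˣ).ker * Nat.card (O ⧸ maximalIdeal O ^ e) := by
  have hmapeq : (oneUnits O (e + 1)).map (powMonoidHom p : Oˣ →* Oˣ) = oneUnits O (e + 1 + e) := by
    apply le_antisymm
    · rintro _ ⟨x, hx, rfl⟩
      exact pow_mem_oneUnits hϖ hp hpe le_rfl hx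
    · intro y hy
      obtain ⟨x, hx, rfl⟩ := exists_pow_eq_of_mem_oneUnits hϖ hp hpe hcomplete le_rfl hy
      exact ⟨x, hx, rfl⟩
  have h := index_range_eq (powMonoidHom p : Oˣ →* Oˣ) (oneUnits O (e + 1))
    (by rw [hmapeq]; exact oneUnits_antitone (by omega))
    (by
      rw [eq_bot_iff]
      rintro x ⟨hx1, hx2⟩
      exact eq_one_of_pow_eq_one hϖ hp hpe le_rfl hx1 (by simpa using hx2))
  rw [h, hmapeq, relIndex_oneUnits hϖ (by omega) (by omega)]

end DVR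

/-! ### The statement for an adically complete discrete valuation ring -/

section Complete

variable (O : Type*) [CommRing O] [IsDomain O] [IsDiscreteValuationRing O]
  [IsAdicComplete (maximalIdeal O) O]

/-- `ϖ`-adic Cauchy sequences converge in an adically complete discrete valuation ring. -/
theorem exists_limit_of_isAdicComplete {ϖ : O} (hϖ : Irreducible ϖ) (f : ℕ → O)
    (hf : ∀ k, ϖ ^ k ∣ f (k + 1) - f k) : ∃ L, ∀ k, ϖ ^ k ∣ L - f k := by
  have hI : ∀ k : ℕ, ∀ x : O, x ∈ (maximalIdeal O ^ k • ⊤ : Submodule O O) ↔ ϖ ^ k ∣ x := by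
    intro k x
    rw [smul_eq_mul, Ideal.mul_top, hϖ.maximalIdeal_eq, Ideal.span_singleton_pow,
      Ideal.mem_span_singleton]
  have hcauchy : ∀ {m n : ℕ}, m ≤ n → f m ≡ f n [SMOD (maximalIdeal O ^ m • ⊤ : Submodule O O)] := by
    intro m n hmn
    rw [SModEq.sub_mem, hI]
    induction n, hmn using Nat.le_induction with
    | base => simp
    | succ n hmn ih =>
      have h1 : f m - f (n + 1) = (f m - f n) - (f (n + 1) - f n) := by ring
      rw [h1]
      exact dvd_sub ih ((pow_dvd_pow _ hmn).trans (hf n))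
  obtain ⟨L, hL⟩ := IsPrecomplete.prec (I := maximalIdeal O) (M := O) inferInstance hcauchy
  refine ⟨L, fun k => ?_⟩
  have h1 := hL k
  rw [SModEq.sub_mem, hI] at h1
  have h2 : L - f k = -(f k - L) := by ring
  rw [h2]; exact h1.neg_right

variable [Finite (ResidueField O)]

/-- **Local power index.**  For a complete discrete valuation ring `O` with finite residue field
and a prime number `p` which is nonzero in `O`:
`[Oˣ : (Oˣ)^p] = #μ_p(O) * #(O ⧸ pO)`. -/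
theorem index_range_pow_units {p : ℕ} (hp : p.Prime) (hp0 : (p : O) ≠ 0) :
    (powMonoidHom p : Oˣ →* Oˣ).range.index
      = Nat.card (powMonoidHom p : Oˣ →* Oˣ).ker * Nat.card (O ⧸ Ideal.span {(p : O)}) := by
  obtain ⟨ϖ, hϖ⟩ := IsDiscreteValuationRing.exists_irreducible O
  obtain ⟨e, u₀, hpe⟩ := IsDiscreteValuationRing.eq_unit_mul_pow_irreducible hp0 hϖ
  have hspan : Ideal.span {(p : O)} = maximalIdeal O ^ e := by
    rw [hpe, Ideal.span_singleton_mul_left_unit u₀.isUnit, hϖ.maximalIdeal_eq,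
      Ideal.span_singleton_pow]
  rw [hspan]
  exact index_range_pow_units_of_uniformizer hϖ hp hpe (exists_limit_of_isAdicComplete O hϖ)

end Complete

end Fermat.Agent.S55.H67
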