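/-
Program C (S55), foundation leaf "LOCAL POWER INDEX" (helper67), part 2.  Mathlib only.

* `index_range_pow_field`: for `K = Frac O`, `O` a complete discrete valuation ring with finite
  residue field, `p` prime, `p ≠ 0` in `O`:  `[Kˣ : (Kˣ)^p] = p * #μ_p(K) * #(O ⧸ pO)`.
* `card_quot_maximalIdeal_pow`: `#(O ⧸ 𝔪^e) = #(residue field)^e`.
* `exists_pow_eq_of_sub_one_mem`: if `p` is a unit of `O`, every `1`-unit is a `p`-th power.
-/
import Mathlib
import Fermat.Agent.S55.H67.PowIndex

namespace Fermat.Agent.S55.H67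

open IsLocalRing

/-! ### Transport of the power index along isomorphisms and products -/

section Transport

variable {A B : Type*} [CommGroup A] [CommGroup B]

theorem index_range_pow_congr (e : A ≃* B) (p : ℕ) :
    (powMonoidHom p : B →* B).range.index = (powMonoidHom p : A →* A).range.index := by
  have h : (powMonoidHom p : B →* B).range
      = (powMonoidHom p : A →* A).range.map (e : A →* B) := by
    ext y
    simp only [MonoidHom.mem_range, Subgroup.mem_map, powMonoidHom_apply]
    constructor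
    · rintro ⟨x, rfl⟩
      exact ⟨(e.symm x) ^ p, ⟨e.symm x, rfl⟩, by simp⟩
    · rintro ⟨_, ⟨x, rfl⟩, rfl⟩
      exact ⟨e x, by simp⟩
  rw [h, Subgroup.index_map_equiv]

theorem card_ker_pow_congr (e : A ≃* B) (p : ℕ) :
    Nat.card (powMonoidHom p : B →* B).ker = Nat.card (powMonoidHom p : A →* A).ker := by
  have h : (powMonoidHom p : B →* B).ker
      = (powMonoidHom p : A →* A).ker.map (e : A →* B) := by
    ext y
    simp only [MonoidHom.mem_ker, Subgroup.mem_map, powMonoidHom_apply]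
    constructor
    · intro hy
      refine ⟨e.symm y, ?_, by simp⟩
      apply e.injective
      simp [hy]
    · rintro ⟨x, hx, rfl⟩
      have : (e x) ^ p = e (x ^ p) := (map_pow e x p).symm
      rw [MonoidHom.coe_coe, this, hx, map_one]
  rw [h]
  exact Subgroup.card_map_of_injective e.injective

theorem range_pow_prod (p : ℕ) :
    (powMonoidHom p : A × B →* A × B).range
      = (powMonoidHom p : A →* A).range.prod (powMonoidHom p : B →* B).range := by
  ext ⟨a, b⟩
  simp only [MonoidHom.mem_range, Subgroup.mem_prod, powMonoidHom_apply, Prod.exists, Prod.pow_mk,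
    Prod.mk.injEq]
  constructor
  · rintro ⟨x, y, rfl, rfl⟩
    exact ⟨⟨x, rfl⟩, ⟨y, rfl⟩⟩
  · rintro ⟨⟨x, rfl⟩, ⟨y, rfl⟩⟩
    exact ⟨x, y, rfl, rfl⟩

theorem ker_pow_prod (p : ℕ) :
    (powMonoidHom p : A × B →* A × B).ker
      = (powMonoidHom p : A →* A).ker.prod (powMonoidHom p : B →* B).ker := by
  ext ⟨a, b⟩
  simp only [MonoidHom.mem_ker, Subgroup.mem_prod, powMonoidHom_apply, Prod.pow_mk,
    Prod.mk_eq_one]

/-- The `p`-th powers have index `p` in the infinite cyclic group. -/
theorem index_range_pow_int (p : ℕ) :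
    (powMonoidHom p : Multiplicative ℤ →* Multiplicative ℤ).range.index = p := by
  let g : Multiplicative ℤ →* Multiplicative (ZMod p) :=
    AddMonoidHom.toMultiplicative (Int.castAddHom (ZMod p))
  have hg : ∀ n : Multiplicative ℤ, g n = Multiplicative.ofAdd ((Multiplicative.toAdd n : ℤ) : ZMod p) :=
    fun _ => rfl
  have hker : g.ker = (powMonoidHom p : Multiplicative ℤ →* Multiplicative ℤ).range := by
    ext n
    rw [MonoidHom.mem_ker, hg, ofAdd_eq_one, ZMod.intCast_zmod_eq_zero_iff_dvd, MonoidHom.mem_range]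
    constructor
    · rintro ⟨m, hm⟩
      refine ⟨Multiplicative.ofAdd m, ?_⟩
      rw [powMonoidHom_apply, ← ofAdd_nsmul, nsmul_eq_mul, ← hm]
      rfl
    · rintro ⟨m, rfl⟩
      refine ⟨Multiplicative.toAdd m, ?_⟩
      rw [powMonoidHom_apply, toAdd_pow, nsmul_eq_mul]
  have hsurj : Function.Surjective g := by
    intro c
    obtain ⟨n, hn⟩ := ZMod.intCast_surjective (Multiplicative.toAdd c)
    exact ⟨Multiplicative.ofAdd n, by rw [hg]; simp [hn]⟩
  rw [← hker, Subgroup.index_ker, MonoidHom.range_eq_top.2 hsurj, Subgroup.card_top,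
    Nat.card_congr Multiplicative.toAdd, Nat.card_zmod]

/-- The `p`-th power map is injective on the infinite cyclic group. -/
theorem ker_pow_int {p : ℕ} (hp : p ≠ 0) :
    (powMonoidHom p : Multiplicative ℤ →* Multiplicative ℤ).ker = ⊥ := by
  rw [eq_bot_iff]
  intro n hn
  rw [MonoidHom.mem_ker, powMonoidHom_apply] at hn
  have h1 : p • (Multiplicative.toAdd n : ℤ) = 0 := by
    rw [← toAdd_pow, hn]; rfl
  rw [nsmul_eq_mul] at h1
  have h2 : (Multiplicative.toAdd n : ℤ) = 0 := by
    rcases mul_eq_zero.1 h1 with h | h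
    · exact absurd (by exact_mod_cast h) hp
    · exact h
  exact Subgroup.mem_bot.2 (by rw [← ofAdd_toAdd n, h2]; rfl)

end Transport

/-! ### The fraction field of a discrete valuation ring -/

section Field

variable {O : Type*} [CommRing O] [IsDomain O] [IsDiscreteValuationRing O]
variable {K : Type*} [Field K] [Algebra O K] [IsFractionRing O K]

/-- `Kˣ ≃ ℤ × Oˣ` for the fraction field of a discrete valuation ring, after the choice of a
uniformiser. -/
theorem exists_mulEquiv_int_prod_units (K : Type*) [Field K] [Algebra O K] [IsFractionRing O K] :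
    Nonempty (Multiplicative ℤ × Oˣ ≃* Kˣ) := by
  obtain ⟨ϖ, hϖ⟩ := IsDiscreteValuationRing.exists_irreducible O
  have hinj : Function.Injective (algebraMap O K) := IsFractionRing.injective O K
  have hϖK : algebraMap O K ϖ ≠ 0 := by
    rw [Ne, map_eq_zero_iff _ hinj]; exact hϖ.ne_zero
  let ϖK : Kˣ := Units.mk0 _ hϖK
  let ι : Oˣ →* Kˣ := Units.map (algebraMap O K : O →* K)
  let θ : Multiplicative ℤ × Oˣ →* Kˣ := MonoidHom.coprod (zpowersHom Kˣ ϖK) ι
  have hθ : ∀ (n : ℤ) (u : Oˣ), ((θ (Multiplicative.ofAdd n, u) : Kˣ) : K)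
      = algebraMap O K ϖ ^ n * algebraMap O K u := by
    intro n u
    show (((zpowersHom Kˣ ϖK) (Multiplicative.ofAdd n) * ι u : Kˣ) : K) = _
    rw [zpowersHom_apply, toAdd_ofAdd, Units.val_mul, Units.val_zpow_eq_zpow_val]
    rfl
  have hnotunit : ∀ m : ℕ, m ≠ 0 → ¬ IsUnit (ϖ ^ m) := fun m hm h =>
    hϖ.not_isUnit ((isUnit_pow_iff hm).1 h)
  refine ⟨MulEquiv.ofBijective θ ⟨?_, ?_⟩⟩
  · rw [injective_iff_map_eq_one]
    rintro ⟨n, u⟩ h
    have h1 : algebraMap O K ϖ ^ (Multiplicative.toAdd n) * algebraMap O K u = 1 := by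
      have := hθ (Multiplicative.toAdd n) u
      rw [ofAdd_toAdd, h, Units.val_one] at this
      exact this.symm
    have hn : Multiplicative.toAdd n = 0 := by
      by_contra hne
      rcases lt_or_gt_of_ne hne with hlt | hgt
      · -- negative exponent: `u = ϖ^m`
        obtain ⟨m, hm⟩ : ∃ m : ℕ, Multiplicative.toAdd n = -(m : ℤ) :=
          ⟨(-Multiplicative.toAdd n).toNat, by omega⟩
        have hm0 : m ≠ 0 := by omega
        rw [hm, zpow_neg, zpow_natCast, inv_mul_eq_one₀ (pow_ne_zero _ hϖK), ← map_pow] at h1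
        have h2 : ϖ ^ m = u := hinj h1
        exact hnotunit m hm0 (h2 ▸ u.isUnit)
      · obtain ⟨m, hm⟩ : ∃ m : ℕ, Multiplicative.toAdd n = (m : ℤ) :=
          ⟨(Multiplicative.toAdd n).toNat, by omega⟩
        have hm0 : m ≠ 0 := by omega
        rw [hm, zpow_natCast, ← map_pow, ← map_mul] at h1
        have h2 : ϖ ^ m * u = 1 := hinj (by rw [h1, map_one])
        exact hnotunit m hm0 (IsUnit.of_mul_eq_one _ h2)
    have hu : u = 1 := by
      rw [hn, zpow_zero, one_mul] at h1
      exact Units.ext (hinj (by rw [h1, Units.val_one, map_one]))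
    have hn' : n = 1 := by rw [← ofAdd_toAdd n, hn]; rfl
    rw [hn', hu]; rfl
  · intro x
    obtain ⟨n, u, hx⟩ := IsDiscreteValuationRing.exists_units_eq_smul_zpow_of_irreducible
      (K := K) hϖ (x := (x : K)) x.ne_zero
    refine ⟨(Multiplicative.ofAdd n, u), Units.ext ?_⟩
    rw [hθ, hx, Units.smul_def, Algebra.smul_def, mul_comm]

/-- `[Kˣ : (Kˣ)^p] = p * [Oˣ : (Oˣ)^p]`. -/
theorem index_range_pow_field_eq (K : Type*) [Field K] [Algebra O K] [IsFractionRing O K] (p : ℕ) :
    (powMonoidHom p : Kˣ →* Kˣ).range.index = p * (powMonoidHom p : Oˣ →* Oˣ).range.index := by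
  obtain ⟨e⟩ := exists_mulEquiv_int_prod_units (O := O) K
  rw [index_range_pow_congr e p, range_pow_prod, Subgroup.index_prod, index_range_pow_int]

/-- `#μ_p(K) = #μ_p(O)`. -/
theorem card_ker_pow_field_eq (K : Type*) [Field K] [Algebra O K] [IsFractionRing O K] {p : ℕ}
    (hp : p ≠ 0) :
    Nat.card (powMonoidHom p : Kˣ →* Kˣ).ker = Nat.card (powMonoidHom p : Oˣ →* Oˣ).ker := by
  obtain ⟨e⟩ := exists_mulEquiv_int_prod_units (O := O) K
  rw [card_ker_pow_congr e p, ker_pow_prod, ker_pow_int hp]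
  rw [Nat.card_congr (Subgroup.prodEquiv _ _).toEquiv, Nat.card_prod]
  simp

end Field

/-! ### Final statements for a complete discrete valuation ring with finite residue field -/

section Complete

/-- `#(O ⧸ 𝔪^e) = #(residue field)^e`. -/
theorem card_quot_maximalIdeal_pow (O : Type*) [CommRing O] [IsDomain O]
    [IsDiscreteValuationRing O] (e : ℕ) :
    Nat.card (O ⧸ maximalIdeal O ^ e) = Nat.card (ResidueField O) ^ e := by
  have h := cardQuot_pow_of_prime (P := maximalIdeal O) (IsDiscreteValuationRing.not_a_field O)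
    (i := e)
  rw [Submodule.cardQuot_apply, Submodule.cardQuot_apply] at h
  exact h

variable (O : Type*) [CommRing O] [IsDomain O] [IsDiscreteValuationRing O]
  [IsAdicComplete (maximalIdeal O) O]

/-- If `p` is a unit of `O`, every unit congruent to `1` modulo the maximal ideal is the
`p`-th power of such a unit. -/
theorem exists_pow_eq_of_sub_one_mem {p : ℕ} (hp : p.Prime) (hpu : IsUnit (p : O)) (u : Oˣ)
    (hu : (u : O) - 1 ∈ maximalIdeal O) :
    ∃ w : Oˣ, w ^ p = u ∧ (w : O) - 1 ∈ maximalIdeal O := by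
  obtain ⟨ϖ, hϖ⟩ := IsDiscreteValuationRing.exists_irreducible O
  have hpe : (p : O) = (hpu.unit : Oˣ) * ϖ ^ 0 := by rw [pow_zero, mul_one, IsUnit.unit_spec]
  have hu' : u ∈ oneUnits O (1 + 0) := by
    rw [mem_oneUnits_iff, add_zero, pow_one]; exact hu
  obtain ⟨w, hw, hwp⟩ := exists_pow_eq_of_mem_oneUnits hϖ hp hpe
    (exists_limit_of_isAdicComplete O hϖ) (le_refl 1) hu'
  refine ⟨w, hwp, ?_⟩
  rw [mem_oneUnits_iff, pow_one] at hw
  exact hw

variable [Finite (ResidueField O)]

/-- **Local power index, field version.**  `[Kˣ : (Kˣ)^p] = p * #μ_p(K) * #(O ⧸ pO)` for the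
fraction field `K` of a complete discrete valuation ring `O` with finite residue field and a
prime number `p` with `p ≠ 0` in `O`. -/
theorem index_range_pow_field (K : Type*) [Field K] [Algebra O K] [IsFractionRing O K] {p : ℕ}
    (hp : p.Prime) (hp0 : (p : O) ≠ 0) :
    (powMonoidHom p : Kˣ →* Kˣ).range.index
      = p * Nat.card (powMonoidHom p : Kˣ →* Kˣ).ker * Nat.card (O ⧸ Ideal.span {(p : O)}) := by
  rw [index_range_pow_field_eq (O := O) K p, index_range_pow_units O hp hp0,
    card_ker_pow_field_eq (O := O) K hp.ne_zero, mul_assoc]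

/-- If `p` is a unit of `O` (residue characteristic `≠ p`): `[Oˣ : (Oˣ)^p] = #μ_p(O)`. -/
theorem index_range_pow_units_of_isUnit {p : ℕ} (hp : p.Prime) (hpu : IsUnit (p : O)) :
    (powMonoidHom p : Oˣ →* Oˣ).range.index = Nat.card (powMonoidHom p : Oˣ →* Oˣ).ker := by
  have : Subsingleton (O ⧸ (⊤ : Ideal O)) := Ideal.Quotient.subsingleton_iff.2 rfl
  have h1 : Nat.card (O ⧸ (⊤ : Ideal O)) = 1 := Nat.card_unique
  rw [index_range_pow_units O hp hpu.ne_zero, Ideal.span_singleton_eq_top.2 hpu, h1, mul_one]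

/-- If `p` is a unit of `O` (residue characteristic `≠ p`): `[Kˣ : (Kˣ)^p] = p * #μ_p(K)`. -/
theorem index_range_pow_field_of_isUnit (K : Type*) [Field K] [Algebra O K] [IsFractionRing O K]
    {p : ℕ} (hp : p.Prime) (hpu : IsUnit (p : O)) :
    (powMonoidHom p : Kˣ →* Kˣ).range.index = p * Nat.card (powMonoidHom p : Kˣ →* Kˣ).ker := by
  rw [index_range_pow_field_eq (O := O) K p, index_range_pow_units_of_isUnit O hp hpu,
    card_ker_pow_field_eq (O := O) K hp.ne_zero]

end Complete

/-! ### With a primitive `p`-th root of unity -/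

section PrimitiveRoot

/-- If `F` contains a primitive `p`-th root of unity then `#μ_p(F) = p`. -/
theorem card_ker_pow_of_isPrimitiveRoot {F : Type*} [Field F] {p : ℕ} [NeZero p] {ζ : F}
    (hζ : IsPrimitiveRoot ζ p) : Nat.card (powMonoidHom p : Fˣ →* Fˣ).ker = p := by
  have h : (powMonoidHom p : Fˣ →* Fˣ).ker = rootsOfUnity p F := by
    ext x
    rw [MonoidHom.mem_ker, powMonoidHom_apply, mem_rootsOfUnity]
  rw [h, hζ.card_rootsOfUnity]

variable (O : Type*) [CommRing O] [IsDomain O] [IsDiscreteValuationRing O]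
  [IsAdicComplete (maximalIdeal O) O] [Finite (ResidueField O)]
  (F : Type*) [Field F] [Algebra O F] [IsFractionRing O F]

/-- **Local power index with `μ_p ⊆ F`**: `[Fˣ : (Fˣ)^p] = p^2 * #(O ⧸ pO)`. -/
theorem index_range_pow_field_of_isPrimitiveRoot {p : ℕ} (hp : p.Prime) (hp0 : (p : O) ≠ 0)
    {ζ : F} (hζ : IsPrimitiveRoot ζ p) :
    (powMonoidHom p : Fˣ →* Fˣ).range.index = p ^ 2 * Nat.card (O ⧸ Ideal.span {(p : O)}) := by
  have : NeZero p := ⟨hp.ne_zero⟩
  rw [index_range_pow_field O F hp hp0, card_ker_pow_of_isPrimitiveRoot hζ, pow_two]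

/-- **Local unit power index with `μ_p ⊆ F`**: `[Oˣ : (Oˣ)^p] = p * #(O ⧸ pO)`. -/
theorem index_range_pow_units_of_isPrimitiveRoot {p : ℕ} (hp : p.Prime) (hp0 : (p : O) ≠ 0)
    {ζ : F} (hζ : IsPrimitiveRoot ζ p) :
    (powMonoidHom p : Oˣ →* Oˣ).range.index = p * Nat.card (O ⧸ Ideal.span {(p : O)}) := by
  have : NeZero p := ⟨hp.ne_zero⟩
  rw [index_range_pow_units O hp hp0, ← card_ker_pow_field_eq (O := O) F hp.ne_zero,
    card_ker_pow_of_isPrimitiveRoot hζ]

/-- Residue characteristic `≠ p`, `μ_p ⊆ F`: `[Oˣ : (Oˣ)^p] = p`. -/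
theorem index_range_pow_units_of_isUnit_of_isPrimitiveRoot {p : ℕ} (hp : p.Prime)
    (hpu : IsUnit (p : O)) {ζ : F} (hζ : IsPrimitiveRoot ζ p) :
    (powMonoidHom p : Oˣ →* Oˣ).range.index = p := by
  have : NeZero p := ⟨hp.ne_zero⟩
  rw [index_range_pow_units_of_isUnit O hp hpu, ← card_ker_pow_field_eq (O := O) F hp.ne_zero,
    card_ker_pow_of_isPrimitiveRoot hζ]

/-- Residue characteristic `≠ p`, `μ_p ⊆ F`: `[Fˣ : (Fˣ)^p] = p^2`. -/
theorem index_range_pow_field_of_isUnit_of_isPrimitiveRoot {p : ℕ} (hp : p.Prime)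
    (hpu : IsUnit (p : O)) {ζ : F} (hζ : IsPrimitiveRoot ζ p) :
    (powMonoidHom p : Fˣ →* Fˣ).range.index = p ^ 2 := by
  have : NeZero p := ⟨hp.ne_zero⟩
  rw [index_range_pow_field_of_isUnit O F hp hpu, card_ker_pow_of_isPrimitiveRoot hζ, pow_two]

end PrimitiveRoot

/-! ### The unit group of a valuation subring, as a subgroup of `Fˣ` -/

section UnitGroup

variable {F : Type*} [Field F] (A : ValuationSubring F)

/-- The index of the `p`-th powers of `A.unitGroup ≤ Fˣ` inside `A.unitGroup` is the index of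
the `p`-th powers in the abstract unit group `Aˣ`. -/
theorem relIndex_map_pow_unitGroup (p : ℕ) :
    (A.unitGroup.map (powMonoidHom p : Fˣ →* Fˣ)).relIndex A.unitGroup
      = (powMonoidHom p : Aˣ →* Aˣ).range.index := by
  let ι : Aˣ →* Fˣ := Units.map (A.subtype : A →* F)
  have hι : Function.Injective ι := Units.map_injective Subtype.val_injective
  have hιval : ∀ u : Aˣ, ((ι u : Fˣ) : F) = ((u : A) : F) := fun _ => rfl
  have htop : (⊤ : Subgroup Aˣ).map ι = A.unitGroup := by
    ext x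
    rw [Subgroup.mem_map]
    constructor
    · rintro ⟨u, -, rfl⟩
      have h := (A.unitGroupMulEquiv.symm u).2
      have e : ((A.unitGroupMulEquiv.symm u : A.unitGroup) : Fˣ) = ι u := by
        apply Units.ext
        rw [hιval]
        exact A.coe_unitGroupMulEquiv_symm_apply u
      rw [← e]; exact h
    · intro hx
      refine ⟨A.unitGroupMulEquiv ⟨x, hx⟩, Subgroup.mem_top _, ?_⟩
      apply Units.ext
      rw [hιval]
      exact A.coe_unitGroupMulEquiv_apply ⟨x, hx⟩
  have hpow : ((powMonoidHom p : Aˣ →* Aˣ).range).map ι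
      = A.unitGroup.map (powMonoidHom p : Fˣ →* Fˣ) := by
    rw [← htop, MonoidHom.map_range, ← MonoidHom.range_eq_map, MonoidHom.map_range]
    congr 1
  rw [← hpow, ← htop, Subgroup.relIndex_map_map_of_injective _ _ hι, Subgroup.relIndex_top_right]

/-- `Fˣ / A.unitGroup` is torsion-free: if `x ^ p` is a unit of `A` (`p ≠ 0`) then so is `x`. -/
theorem mem_unitGroup_of_pow_mem {p : ℕ} (hp : p ≠ 0) {x : Fˣ} (h : x ^ p ∈ A.unitGroup) :
    x ∈ A.unitGroup := by
  rw [ValuationSubring.mem_unitGroup_iff] at h ⊢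
  rw [Units.val_pow_eq_pow_val, map_pow] at h
  exact (pow_eq_one_iff.1 h).resolve_right hp

end UnitGroup

end Fermat.Agent.S55.H67
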