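/-
Program C (S55), foundation leaf "LOCAL POWER INDEX" (helper67), part 3.  Mathlib only.

The valuation ring of a complete valued field with archimedean value group, when it is a
discrete valuation ring, is adically complete (Mathlib has this only for
`IsNonarchimedeanLocalField`, via compactness).
-/
import Mathlib

namespace Fermat.Agent.S55.H67

open IsLocalRing Filter Topology

section

variable {K : Type*} [Field K] {Γ₀ : Type*} [LinearOrderedCommGroupWithZero Γ₀]
  [hv : Valued K Γ₀]

/-- Divisibility in the valuation ring in terms of the valuation. -/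
theorem valuationSubring_dvd_iff (a b : hv.v.valuationSubring) :
    a ∣ b ↔ hv.v (b : K) ≤ hv.v (a : K) :=
  (Valuation.valuationSubring.integers hv.v).dvd_iff_le

/-- Convergence of `ϖ`-adic Cauchy sequences in the valuation ring of a complete valued field:
if the powers of `v ϖ` tend to zero and `ϖ^k ∣ f (k+1) - f k` for all `k`, then there is `L`
with `ϖ^k ∣ L - f k` for all `k`. -/
theorem exists_limit_valuationSubring [CompleteSpace K] (ϖ : hv.v.valuationSubring)
    (hϖ : ∀ γ : Γ₀ˣ, ∃ n : ℕ, hv.v (ϖ : K) ^ n < γ)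
    (f : ℕ → hv.v.valuationSubring) (hf : ∀ k, ϖ ^ k ∣ f (k + 1) - f k) :
    ∃ L : hv.v.valuationSubring, ∀ k, ϖ ^ k ∣ L - f k := by
  have hϖ1 : hv.v (ϖ : K) ≤ 1 := ϖ.2
  have hstep : ∀ k, hv.v ((f (k + 1) : K) - (f k : K)) ≤ hv.v (ϖ : K) ^ k := by
    intro k
    have h := (valuationSubring_dvd_iff _ _).1 (hf k)
    simpa using h
  -- Step 1: `v (f m - f k) ≤ v ϖ ^ k` for `k ≤ m`.
  have h1 : ∀ k m, k ≤ m → hv.v ((f m : K) - (f k : K)) ≤ hv.v (ϖ : K) ^ k := by
    intro k m hkm
    induction m, hkm using Nat.le_induction with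
    | base => simp
    | succ m hkm ih =>
      have e : (f (m + 1) : K) - (f k : K) = ((f (m + 1) : K) - (f m : K)) + ((f m : K) - (f k : K)) := by
        ring
      rw [e]
      refine (Valuation.map_add_le _ ((hstep m).trans ?_) ih)
      exact pow_le_pow_right_of_le_one' hϖ1 hkm
  -- Step 2: the sequence is Cauchy.
  have hcauchy : CauchySeq (fun k => (f k : K)) := by
    rw [(Valued.hasBasis_uniformity K Γ₀).cauchySeq_iff]
    intro γ _
    have hγ0 : MonoidWithZeroHom.ValueGroup₀.embedding
        (γ : (MonoidWithZeroHom.ofClass hv.v).ValueGroup₀) ≠ 0 := by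
      intro h0
      exact Units.ne_zero γ
        (MonoidWithZeroHom.ValueGroup₀.embedding_strictMono.injective (by rw [h0, map_zero]))
    obtain ⟨N, hN⟩ := hϖ (Units.mk0 _ hγ0)
    rw [Units.val_mk0] at hN
    refine ⟨N, fun m hm n hn => ?_⟩
    show hv.v.restrict ((f n : K) - (f m : K)) < γ
    rw [Valuation.restrict_lt_iff_lt_embedding]
    have e : (f n : K) - (f m : K) = ((f n : K) - (f N : K)) - ((f m : K) - (f N : K)) := by ring
    rw [e]
    exact lt_of_le_of_lt (Valuation.map_sub_le _ (h1 N n hn) (h1 N m hm)) hN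
  obtain ⟨L, hL⟩ := cauchySeq_tendsto_of_complete hcauchy
  -- Step 3: `v (L - f k) ≤ v ϖ ^ k`.
  have h3 : ∀ k, hv.v (L - (f k : K)) ≤ hv.v (ϖ : K) ^ k := by
    intro k
    have hclosed : IsClosed {x : K | hv.v.restrict (x - (f k : K)) ≤ hv.v.restrict ((ϖ : K) ^ k)} :=
      (Valued.isClosed_closedBall K (hv.v.restrict ((ϖ : K) ^ k))).preimage
        (continuous_id.sub continuous_const)
    have hmem := hclosed.mem_of_tendsto hL (eventually_atTop.2 ⟨k, fun m hm => by
      show hv.v.restrict ((f m : K) - (f k : K)) ≤ hv.v.restrict ((ϖ : K) ^ k)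
      rw [Valuation.restrict_le_iff, map_pow]
      exact h1 k m hm⟩)
    have hmem' : hv.v.restrict (L - (f k : K)) ≤ hv.v.restrict ((ϖ : K) ^ k) := hmem
    rw [Valuation.restrict_le_iff, map_pow] at hmem'
    exact hmem'
  -- Step 4: `L` is integral.
  have hLmem : L ∈ hv.v.valuationSubring := by
    show hv.v L ≤ 1
    have e : L = (L - (f 0 : K)) + (f 0 : K) := by ring
    rw [e]
    refine Valuation.map_add_le _ ?_ (f 0).2
    simpa using h3 0
  refine ⟨⟨L, hLmem⟩, fun k => ?_⟩
  rw [valuationSubring_dvd_iff]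
  simpa using h3 k

/-- The valuation ring of a complete valued field with archimedean value group is adically
complete as soon as it is a discrete valuation ring. -/
theorem isAdicComplete_valuationSubring [MulArchimedean Γ₀] [CompleteSpace K]
    [IsDiscreteValuationRing hv.v.valuationSubring] :
    IsAdicComplete (maximalIdeal hv.v.valuationSubring) hv.v.valuationSubring := by
  obtain ⟨ϖ, hϖ⟩ := IsDiscreteValuationRing.exists_irreducible hv.v.valuationSubring
  have hϖlt : hv.v (ϖ : K) < 1 := by
    rw [← Valuation.mem_maximalIdeal_iff, hϖ.maximalIdeal_eq]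
    exact Ideal.mem_span_singleton_self ϖ
  have hpow : ∀ γ : Γ₀ˣ, ∃ n : ℕ, hv.v (ϖ : K) ^ n < γ := fun γ => exists_pow_lt₀ hϖlt γ
  have hI : ∀ k : ℕ, ∀ x : hv.v.valuationSubring,
      x ∈ (maximalIdeal hv.v.valuationSubring ^ k • ⊤ :
          Submodule hv.v.valuationSubring hv.v.valuationSubring) ↔ ϖ ^ k ∣ x := by
    intro k x
    rw [smul_eq_mul, Ideal.mul_top, hϖ.maximalIdeal_eq, Ideal.span_singleton_pow,
      Ideal.mem_span_singleton]
  have : IsHausdorff (maximalIdeal hv.v.valuationSubring) hv.v.valuationSubring :=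
    IsHausdorff.of_le_jacobson (I := maximalIdeal hv.v.valuationSubring) hv.v.valuationSubring
      (by rw [IsLocalRing.jacobson_eq_maximalIdeal _ bot_ne_top])
  refine { prec' := fun f hf => ?_ }
  have hf' : ∀ k, ϖ ^ k ∣ f (k + 1) - f k := by
    intro k
    have h := hf (Nat.le_succ k)
    rw [SModEq.sub_mem, hI] at h
    have e : f (k + 1) - f k = -(f k - f (k + 1)) := by ring
    rw [e]; exact h.neg_right
  obtain ⟨L, hL⟩ := exists_limit_valuationSubring ϖ hpow f hf'
  refine ⟨L, fun n => ?_⟩
  rw [SModEq.sub_mem, hI]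
  have e : f n - L = -(L - f n) := by ring
  rw [e]; exact (hL n).neg_right

end

end Fermat.Agent.S55.H67
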