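/-
Program C (S55), package C9a, sub-leaf (ISO-DIM) (helper67): the abstract core.

For a level datum `D` on `G`, a representation `A`, a subgroup `H` and a family of `H`-invariant
functionals `e i : A → k` which detect coboundaries among the 1-cocycles, the level-constant
`H¹(G, A)` embeds into `I → levelHoms D H` (level-constant homomorphisms `H → k`), by
`[c] ↦ (h ↦ e i (c h))`.  This is Shapiro's lemma in degree 1 (injectivity) for a permutation
module with several orbits, in cocycle form.
-/
import Fermat.Agent.S55.H68.Bridge1Core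
import Fermat.Agent.S55.H49.RouteR
import Fermat.Agent.S55.H26.LocalHilbertSpec

set_option autoImplicit false

open CategoryTheory groupCohomology

noncomputable section

namespace Fermat.Agent.S55.H67

open Fermat.Agent.S55.H49 Fermat.Agent.S55.H68 Fermat.Agent.S55.H26

variable {k : Type} [Field k] {G : Type} [Group G]

/-- The cocycle relation for the function of a level-constant 1-cocycle. -/
theorem ofCyc₁_mul (D : LevelDatum G) (A : Rep.{0} k G) (z : cyc (lcComplex D A) 1) (g h : G) :
    ofCyc₁ D A z (g * h) = A.ρ g (ofCyc₁ D A z h) + ofCyc₁ D A z g := by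
  have h1 := (mem_cocycles₁_def (ofCyc₁ D A z)).1 (ofCyc₁_mem_cocycles₁ D A z) g h
  have h2 : A.ρ g (ofCyc₁ D A z h) + ofCyc₁ D A z g - ofCyc₁ D A z (g * h) = 0 := by
    rw [← h1]; abel
  exact (sub_eq_zero.1 h2).symm

/-- The restriction-evaluation of a level-constant 1-cocycle is a level-constant homomorphism. -/
theorem eval_ofCyc₁_mem_levelHoms (D : LevelDatum G) (A : Rep.{0} k G) (H : Subgroup G)
    (e : A →ₗ[k] k) (h1 : ∀ h ∈ H, ∀ a : A, e (A.ρ h a) = e a) (z : cyc (lcComplex D A) 1) :
    (fun h : H => e (ofCyc₁ D A z (h : G))) ∈ levelHoms (k := k) D H := by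
  refine ⟨fun a b => ?_, ?_⟩
  · show e (ofCyc₁ D A z ((a : G) * (b : G))) = _
    rw [ofCyc₁_mul, map_add, h1 _ a.2, add_comm]
  · obtain ⟨F, hF, -, hlc⟩ := isLC_lcValC D A z.1
    refine ⟨F, hF, fun h n hn => ?_⟩
    show e (ofCyc₁ D A z ((h : G) * (n : G))) = e (ofCyc₁ D A z (h : G))
    have h2 := hlc.1 (fun _ => (h : G)) (fun _ => (n : G)) (fun _ => hn)
    have h3 : ofCyc₁ D A z ((h : G) * (n : G)) = ofCyc₁ D A z (h : G) := h2
    rw [h3]

/-- **Abstract core of (ISO-DIM)**: injection of the level-constant `H¹` into a finite power of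
the space of level-constant homomorphisms of a subgroup. -/
theorem exists_injective_to_levelHoms (D : LevelDatum G) (A : Rep.{0} k G) (H : Subgroup G)
    {I : Type} (e : I → (A →ₗ[k] k))
    (h1 : ∀ i, ∀ h ∈ H, ∀ a : A, e i (A.ρ h a) = e i a)
    (h2 : ∀ c : G → A, c ∈ cocycles₁ A → (∀ i, ∀ h ∈ H, e i (c h) = 0) →
      ∃ a : A, ∀ g, c g = A.ρ g a - a)
    (h3 : ∀ a : A, IsLC D A (fun _ : Fin 0 → G => a)) :
    ∃ Φ : Hlc D A 1 →ₗ[k] (I → levelHoms (k := k) D H), Function.Injective Φ := by
  let f : cyc (lcComplex D A) 1 →ₗ[k] (I → levelHoms (k := k) D H) :=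
    { toFun := fun z i => ⟨fun h : H => e i (ofCyc₁ D A z (h : G)),
        eval_ofCyc₁_mem_levelHoms D A H (e i) (h1 i) z⟩
      map_add' := fun z z' => by
        funext i
        apply Subtype.ext
        funext h
        show e i (ofCyc₁ D A (z + z') (h : G))
          = e i (ofCyc₁ D A z (h : G)) + e i (ofCyc₁ D A z' (h : G))
        rw [← map_add]
        rfl
      map_smul' := fun c z => by
        funext i
        apply Subtype.ext
        funext h
        show e i (ofCyc₁ D A (c • z) (h : G)) = c • e i (ofCyc₁ D A z (h : G))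
        rw [← map_smul]
        rfl }
  have hf : ∀ z : cyc (lcComplex D A) 1,
      (∃ y : (lcComplex D A).X 0, ((lcComplex D A).d 0 (0 + 1)).hom y = z.1) → f z = 0 := by
    intro z hz
    obtain ⟨a, ha⟩ := (cls_eq_zero_iff_exists D A h3 z).1
      ((cls_eq_zero_iff (lcComplex D A) 0 z).2 hz)
    funext i
    apply Subtype.ext
    funext h
    show e i (ofCyc₁ D A z (h : G)) = 0
    rw [ha, map_sub, h1 i _ h.2, sub_self]
  have hΦ : Function.Injective (clsDesc (lcComplex D A) 0 f hf) := by
    rw [injective_iff_map_eq_zero]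
    intro x hx
    obtain ⟨z, rfl⟩ := cls_surjective (lcComplex D A) (0 + 1) x
    rw [clsDesc_cls] at hx
    rw [cls_eq_zero_iff_exists D A h3 z]
    refine h2 (ofCyc₁ D A z) (ofCyc₁_mem_cocycles₁ D A z) (fun i h hh => ?_)
    have h4 := congrFun hx i
    have h5 := congrArg (fun w : levelHoms (k := k) D H => (w : H → k) ⟨h, hh⟩) h4
    exact h5
  exact ⟨clsDesc (lcComplex D A) 0 f hf, hΦ⟩

end Fermat.Agent.S55.H67
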