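/-
Program C (S55), package C9a, sub-leaf (ISO-DIM) (helper67): permutation modules.

For `A = Rep.res φ ((Rep.ofMulAction k Γ X).dualTwist χ)` (the twisted dual of a permutation
module, restricted along `φ : G →* Γ`), a subgroup `H ≤ G` acting trivially on `X` and on which
`χ ∘ φ` is trivial, and a set `R ⊆ X` of representatives of the `G`-orbits all of whose
stabilisers are contained in `H`, the evaluations at the points of `R` satisfy the hypotheses of
the abstract core `exists_injective_to_levelHoms`.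
-/
import Fermat.Agent.S55.H67.IsoDimCore

set_option autoImplicit false

open CategoryTheory groupCohomology

noncomputable section

namespace Fermat.Agent.S55.H67

open Fermat.Agent.S55.H49 Fermat.Agent.S55.H68 Fermat.Agent.S55.H26

variable {k : Type} [Field k] {G Γ : Type} [Group G] [Group Γ] {X : Type} [MulAction Γ X]

/-- Evaluation at a basis vector of the permutation module. -/
def evalAt (φ : G →* Γ) (χ : Γ →* kˣ) (x : X) :
    (Rep.res φ ((Rep.ofMulAction k Γ X).dualTwist χ) : Rep.{0} k G) →ₗ[k] k where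
  toFun f := (show Module.Dual k (MonoidAlgebra k X) from f) (MonoidAlgebra.single x 1)
  map_add' _ _ := rfl
  map_smul' _ _ := rfl

theorem evalAt_ρ (φ : G →* Γ) (χ : Γ →* kˣ) (x : X) (g : G)
    (f : (Rep.res φ ((Rep.ofMulAction k Γ X).dualTwist χ) : Rep.{0} k G)) :
    evalAt φ χ x ((Rep.res φ ((Rep.ofMulAction k Γ X).dualTwist χ) : Rep.{0} k G).ρ g f)
      = (χ (φ g) : k) * evalAt φ χ ((φ g)⁻¹ • x) f := by
  show (χ (φ g) : k) • (show Module.Dual k (MonoidAlgebra k X) from f)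
      (Representation.ofMulAction k Γ X (φ g)⁻¹ (MonoidAlgebra.single x 1)) = _
  rw [Representation.ofMulAction_single]
  rfl

theorem evalAt_ext (φ : G →* Γ) (χ : Γ →* kˣ)
    (f f' : (Rep.res φ ((Rep.ofMulAction k Γ X).dualTwist χ) : Rep.{0} k G))
    (h : ∀ x : X, evalAt φ χ x f = evalAt φ χ x f') : f = f' := by
  have h1 : (show Module.Dual k (MonoidAlgebra k X) from f)
      = (show Module.Dual k (MonoidAlgebra k X) from f') := by
    apply MonoidAlgebra.lhom_ext'
    intro x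
    apply LinearMap.ext_ring
    exact h x
  exact h1

theorem exists_evalAt_eq (φ : G →* Γ) (χ : Γ →* kˣ) (v : X → k) :
    ∃ a : (Rep.res φ ((Rep.ofMulAction k Γ X).dualTwist χ) : Rep.{0} k G),
      ∀ x : X, evalAt φ χ x a = v x := by
  refine ⟨(show Module.Dual k (MonoidAlgebra k X) from (MonoidAlgebra.basis X k).constr k v),
    fun x => ?_⟩
  show ((MonoidAlgebra.basis X k).constr k v) (MonoidAlgebra.single x 1) = v x
  rw [← MonoidAlgebra.basis_apply, Module.Basis.constr_basis]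

/-- The coboundary criterion for the twisted dual of a permutation module. -/
theorem perm_coboundary (φ : G →* Γ) (χ : Γ →* kˣ) (H : Subgroup G) (R : Set X)
    (T1 : ∀ x : X, ∃ g : G, ∃ y ∈ R, φ g • y = x)
    (T2 : ∀ g g' : G, ∀ y ∈ R, ∀ y' ∈ R, φ g • y = φ g' • y' → y = y' ∧ g⁻¹ * g' ∈ H)
    (c : G → (Rep.res φ ((Rep.ofMulAction k Γ X).dualTwist χ) : Rep.{0} k G))
    (hc : c ∈ cocycles₁ (Rep.res φ ((Rep.ofMulAction k Γ X).dualTwist χ) : Rep.{0} k G))
    (h0 : ∀ y : R, ∀ h ∈ H, evalAt φ χ (y : X) (c h) = 0) :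
    ∃ a : (Rep.res φ ((Rep.ofMulAction k Γ X).dualTwist χ) : Rep.{0} k G),
      ∀ g, c g = (Rep.res φ ((Rep.ofMulAction k Γ X).dualTwist χ) : Rep.{0} k G).ρ g a - a := by
  have hmul : ∀ g h : G, c (g * h)
      = (Rep.res φ ((Rep.ofMulAction k Γ X).dualTwist χ) : Rep.{0} k G).ρ g (c h) + c g :=
    (mem_cocycles₁_iff c).1 hc
  choose gx yx hyx hgx using T1
  obtain ⟨a, ha⟩ := exists_evalAt_eq (k := k) φ χ (fun x => - evalAt φ χ x (c (gx x)))
  refine ⟨a, fun g => evalAt_ext φ χ _ _ (fun x => ?_)⟩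
  rw [map_sub, evalAt_ρ, ha, ha]
  set x' : X := (φ g)⁻¹ • x with hx'
  have e1 : φ (g * gx x') • yx x' = φ (gx x) • yx x := by
    rw [map_mul, mul_smul, hgx x', hgx x, hx', smul_inv_smul]
  obtain ⟨e2, e3⟩ := T2 _ _ _ (hyx x') _ (hyx x) e1
  set h : G := (g * gx x')⁻¹ * gx x with hh
  have e4 : gx x = g * gx x' * h := by rw [hh]; group
  have e5 : evalAt φ χ x (c (gx x))
      = (χ (φ g) : k) * evalAt φ χ x' (c (gx x')) + evalAt φ χ x (c g) := by
    rw [e4, hmul (g * gx x') h, hmul g (gx x'), map_add, map_add, evalAt_ρ, evalAt_ρ]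
    have e6 : (φ (g * gx x'))⁻¹ • x = yx x' := by
      rw [inv_smul_eq_iff, map_mul, mul_smul, hgx x', hx', smul_inv_smul]
    rw [e6, h0 ⟨yx x', hyx x'⟩ h e3, mul_zero, zero_add]
  rw [e5]
  ring

/-- **(ISO-DIM), permutation-module form**: the level-constant `H¹` of the twisted dual of a
permutation module embeds into a power of the level-constant homomorphisms of `H`. -/
theorem exists_injective_perm (D : LevelDatum G) (φ : G →* Γ) (χ : Γ →* kˣ) (H : Subgroup G)
    (R : Set X)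
    (T1 : ∀ x : X, ∃ g : G, ∃ y ∈ R, φ g • y = x)
    (T2 : ∀ g g' : G, ∀ y ∈ R, ∀ y' ∈ R, φ g • y = φ g' • y' → y = y' ∧ g⁻¹ * g' ∈ H)
    (T3 : ∀ h ∈ H, χ (φ h) = 1)
    (T4 : ∀ h ∈ H, ∀ x : X, φ h • x = x)
    (h3 : ∀ a : (Rep.res φ ((Rep.ofMulAction k Γ X).dualTwist χ) : Rep.{0} k G),
      IsLC D (Rep.res φ ((Rep.ofMulAction k Γ X).dualTwist χ) : Rep.{0} k G)
        (fun _ : Fin 0 → G => a)) :
    ∃ Φ : Hlc D (Rep.res φ ((Rep.ofMulAction k Γ X).dualTwist χ) : Rep.{0} k G) 1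
        →ₗ[k] (R → levelHoms (k := k) D H), Function.Injective Φ := by
  refine exists_injective_to_levelHoms D _ H (fun y : R => evalAt φ χ (y : X)) ?_ ?_ h3
  · intro y h hh a
    rw [evalAt_ρ, T3 h hh, Units.val_one, one_mul]
    have e1 : (φ h)⁻¹ • (y : X) = y := by rw [inv_smul_eq_iff, T4 h hh]
    rw [e1]
  · intro c hc h0
    exact perm_coboundary φ χ H R T1 T2 c hc (fun y h hh => h0 y h hh)

end Fermat.Agent.S55.H67
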