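/-
Program C (S55), package C9a, sub-leaf (ISO-DIM) (helper67): the orbit count.

For a finite `Γ`-set `X`, `φ : G →* Γ` and a subgroup `H ≤ G` which is the stabiliser of every
point of `X`, the level-constant `H¹(G, (k[X])^∨(χ))` has dimension at most
`r · dim Hom_lc(H, k)`, where `r` is the number of `G`-orbits on `X`; moreover
`r · [G : H] ≤ #X`, and `r ≤ #Y` for every map `X → Y` whose fibres lie in single orbits.
-/
import Fermat.Agent.S55.H67.IsoDimPerm

set_option autoImplicit false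

open CategoryTheory groupCohomology

noncomputable section

namespace Fermat.Agent.S55.H67

open Fermat.Agent.S55.H49 Fermat.Agent.S55.H68 Fermat.Agent.S55.H26

variable {k : Type} [Field k] {G Γ : Type} [Group G] [Group Γ] {X : Type} [MulAction Γ X]

/-- `H` acts trivially on the twisted dual of the permutation module. -/
theorem perm_ρ_eq_of_mem (φ : G →* Γ) (χ : Γ →* kˣ) (H : Subgroup G)
    (T3 : ∀ h ∈ H, χ (φ h) = 1) (T4 : ∀ h ∈ H, ∀ x : X, φ h • x = x) (h : G) (hh : h ∈ H)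
    (a : (Rep.res φ ((Rep.ofMulAction k Γ X).dualTwist χ) : Rep.{0} k G)) :
    (Rep.res φ ((Rep.ofMulAction k Γ X).dualTwist χ) : Rep.{0} k G).ρ h a = a := by
  refine evalAt_ext φ χ _ _ (fun x => ?_)
  rw [evalAt_ρ, T3 h hh, Units.val_one, one_mul]
  have e1 : (φ h)⁻¹ • x = x := by rw [inv_smul_eq_iff, T4 h hh]
  rw [e1]

/-- Orbit representatives for the action of `G` on `X` through `φ`. -/
theorem exists_orbit_reps (φ : G →* Γ) (H : Subgroup G)
    (T5 : ∀ g : G, ∀ x : X, φ g • x = x → g ∈ H) :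
    ∃ R : Set X, (∀ x : X, ∃ g : G, ∃ y ∈ R, φ g • y = x) ∧
      (∀ g g' : G, ∀ y ∈ R, ∀ y' ∈ R, φ g • y = φ g' • y' → y = y' ∧ g⁻¹ * g' ∈ H) := by
  let _ : MulAction G X := MulAction.compHom X φ
  have hsmul : ∀ (g : G) (x : X), g • x = φ g • x := fun _ _ => rfl
  refine ⟨Set.range (fun o : MulAction.orbitRel.Quotient G X => o.out), fun x => ?_, ?_⟩
  · have h1 : (Quotient.mk (MulAction.orbitRel G X) x).out ∈ MulAction.orbit G x :=
      (MulAction.orbitRel_apply).1 (Quotient.mk_out x)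
    obtain ⟨g, hg⟩ := h1
    refine ⟨g⁻¹, (Quotient.mk (MulAction.orbitRel G X) x).out,
      ⟨Quotient.mk (MulAction.orbitRel G X) x, rfl⟩, ?_⟩
    rw [← hsmul, inv_smul_eq_iff]
    exact hg.symm
  · rintro g g' _ ⟨o, rfl⟩ _ ⟨o', rfl⟩ h
    have h1 : o = o' := by
      have e0 : ∀ (γ : G) (y : X), (Quotient.mk (MulAction.orbitRel G X) (γ • y))
          = Quotient.mk (MulAction.orbitRel G X) y := fun γ y =>
        Quotient.sound ((MulAction.orbitRel_apply).2 (MulAction.mem_orbit y γ))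
      have e1 : (Quotient.mk (MulAction.orbitRel G X) (g • o.out)) = o := by
        rw [e0]; exact Quotient.out_eq o
      have e2 : (Quotient.mk (MulAction.orbitRel G X) (g' • o'.out)) = o' := by
        rw [e0]; exact Quotient.out_eq o'
      rw [← e1, ← e2]
      exact congrArg _ h
    subst h1
    refine ⟨rfl, T5 _ o.out ?_⟩
    rw [map_mul, mul_smul, ← h, map_inv, inv_smul_smul]

/-- **(ISO-DIM), counting form.** -/
theorem finrank_Hlc_perm_le [Finite X] (D : LevelDatum G) (φ : G →* Γ) (χ : Γ →* kˣ)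
    (H : Subgroup G)
    (T3 : ∀ h ∈ H, χ (φ h) = 1)
    (T4 : ∀ h ∈ H, ∀ x : X, φ h • x = x)
    (T5 : ∀ g : G, ∀ x : X, φ g • x = x → g ∈ H)
    (h3 : ∀ a : (Rep.res φ ((Rep.ofMulAction k Γ X).dualTwist χ) : Rep.{0} k G),
      IsLC D (Rep.res φ ((Rep.ofMulAction k Γ X).dualTwist χ) : Rep.{0} k G)
        (fun _ : Fin 0 → G => a))
    (d : ℕ) (hfin : FiniteDimensional k (levelHoms (k := k) D H))
    (hd : Module.finrank k (levelHoms (k := k) D H) ≤ d) :
    ∃ r : ℕ, r * H.index ≤ Nat.card X ∧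
      (∀ (Y : Type) [Finite Y] (f : X → Y),
        (∀ x y, f x = f y → ∃ g : G, φ g • x = y) → r ≤ Nat.card Y) ∧
      FiniteDimensional k (Hlc D (Rep.res φ ((Rep.ofMulAction k Γ X).dualTwist χ) : Rep.{0} k G) 1)
        ∧ Module.finrank k
          (Hlc D (Rep.res φ ((Rep.ofMulAction k Γ X).dualTwist χ) : Rep.{0} k G) 1) ≤ r * d := by
  obtain ⟨R, T1, T2⟩ := exists_orbit_reps (X := X) φ H T5
  obtain ⟨Φ, hΦ⟩ := exists_injective_perm D φ χ H R T1 T2 T3 T4 h3
  have : Finite ↥R := Subtype.finite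
  let _ : Fintype ↥R := Fintype.ofFinite _
  refine ⟨Nat.card ↥R, ?_, ?_, ?_, ?_⟩
  · -- `R × G/H ↪ X`
    have hinj : Function.Injective (fun z : ↥R × (G ⧸ H) => φ z.2.out • (z.1 : X)) := by
      rintro ⟨y, a⟩ ⟨y', a'⟩ h
      obtain ⟨e1, e2⟩ := T2 _ _ _ y.2 _ y'.2 h
      have e3 : a = a' := by
        rw [← QuotientGroup.out_eq' a, ← QuotientGroup.out_eq' a']
        exact QuotientGroup.eq.2 e2
      rw [Subtype.ext e1, e3]
    have h1 := Nat.card_le_card_of_injective _ hinj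
    rw [Nat.card_prod] at h1
    exact h1
  · intro Y _ f hf
    refine Nat.card_le_card_of_injective (fun y : ↥R => f (y : X)) ?_
    intro y y' h
    obtain ⟨g, hg⟩ := hf _ _ h
    have e1 : φ g • (y : X) = φ 1 • (y' : X) := by rw [hg, map_one, one_smul]
    exact Subtype.ext (T2 _ _ _ y.2 _ y'.2 e1).1
  · exact FiniteDimensional.of_injective Φ hΦ
  · have h1 := LinearMap.finrank_le_finrank_of_injective hΦ
    rw [Module.finrank_pi_fintype, Finset.sum_const, Finset.card_univ, smul_eq_mul,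
      ← Nat.card_eq_fintype_card] at h1
    exact h1.trans (Nat.mul_le_mul_left _ hd)

end Fermat.Agent.S55.H67
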